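/-
S13 / torsion count, part 1: coprime triples of polynomials and their maximal degree
("heights of points of `ℙ²` over the function field `K(t)`").

* `Coprime3 T₀ T₁ T₂` : the three polynomials generate the unit ideal;
* `maxDeg3_eq_of_prop` : two proportional coprime triples have the same maximal degree;
* `gauss_coprime3`, `gauss_maxDeg3` : for coprime pairs `(α', β')`, `(α'', β'')` the triple
  `(β'β'', α'β'' + α''β', α'α'')` (the point `[1 : u + v : uv]`) is coprime of maximal degree
  `h(u) + h(v)` (Gauss' lemma at the infinite place);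
* `morph_coprime3`, `morph_maxDeg3` : for a coprime pair `(α, β)` the triple
  `((α - tβ)², 2((α + tβ)(tα + bβ) + 2atαβ), (tα - bβ)²)` is coprime (if `b (a² - 4b) ≠ 0`) of
  maximal degree `2 (h + 1)` (the duplication-type morphism `ℙ² → ℙ²` attached to
  `y² = x³ + a x² + b x`).
-/
import Mathlib

set_option autoImplicit false

open Polynomial

namespace Fermat.Agent.S13Lib.Torsion

variable {K : Type*} [Field K]

/-- three polynomials generating the unit ideal -/
def Coprime3 (T₀ T₁ T₂ : K[X]) : Prop := ∃ u v w : K[X], u * T₀ + v * T₁ + w * T₂ = 1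

/-- the maximal degree of a triple of polynomials -/
def maxDeg3 (T₀ T₁ T₂ : K[X]) : ℕ := max T₀.natDegree (max T₁.natDegree T₂.natDegree)

theorem Coprime3.dvd_of_prop {T₀ T₁ T₂ G₀ G₁ G₂ : K[X]} (hT : Coprime3 T₀ T₁ T₂)
    (h1 : T₁ * G₀ = G₁ * T₀) (h2 : T₂ * G₀ = G₂ * T₀) : T₀ ∣ G₀ := by
  obtain ⟨u, v, w, h⟩ := hT
  refine ⟨u * G₀ + v * G₁ + w * G₂, ?_⟩
  calc G₀ = (u * T₀ + v * T₁ + w * T₂) * G₀ := by rw [h, one_mul]
    _ = T₀ * (u * G₀ + v * G₁ + w * G₂) := by linear_combination v * h1 + w * h2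

/-- two proportional coprime triples have the same maximal degree -/
theorem maxDeg3_eq_of_prop {T₀ T₁ T₂ G₀ G₁ G₂ : K[X]} (hT : Coprime3 T₀ T₁ T₂)
    (hG : Coprime3 G₀ G₁ G₂) (hT0 : T₀ ≠ 0)
    (h1 : T₁ * G₀ = G₁ * T₀) (h2 : T₂ * G₀ = G₂ * T₀) :
    maxDeg3 T₀ T₁ T₂ = maxDeg3 G₀ G₁ G₂ := by
  have d1 : T₀ ∣ G₀ := hT.dvd_of_prop h1 h2
  have d2 : G₀ ∣ T₀ := hG.dvd_of_prop h1.symm h2.symm
  obtain ⟨c, hc⟩ := (associated_of_dvd_dvd d1 d2)
  -- `T₀ * c = G₀`, `c` a unit
  have e1 : G₁ = T₁ * c := by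
    have : T₀ * G₁ = T₀ * (T₁ * c) := by
      calc T₀ * G₁ = G₁ * T₀ := mul_comm _ _
        _ = T₁ * G₀ := h1.symm
        _ = T₀ * (T₁ * c) := by rw [← hc]; ring
    exact mul_left_cancel₀ hT0 this
  have e2 : G₂ = T₂ * c := by
    have : T₀ * G₂ = T₀ * (T₂ * c) := by
      calc T₀ * G₂ = G₂ * T₀ := mul_comm _ _
        _ = T₂ * G₀ := h2.symm
        _ = T₀ * (T₂ * c) := by rw [← hc]; ring
    exact mul_left_cancel₀ hT0 this
  have key : ∀ P : K[X], (P * (c : K[X])).natDegree = P.natDegree := by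
    intro P
    exact natDegree_eq_of_degree_eq (degree_eq_degree_of_associated ⟨c, rfl⟩).symm
  unfold maxDeg3
  rw [← hc, e1, e2, key, key, key]

/-- over an algebraically closed field, three polynomials without a common root generate the unit
ideal -/
theorem coprime3_of_no_common_root [IsAlgClosed K] {T₀ T₁ T₂ : K[X]} (h0 : T₀ ≠ 0)
    (h : ∀ x : K, T₀.eval x = 0 → T₁.eval x = 0 → T₂.eval x = 0 → False) :
    Coprime3 T₀ T₁ T₂ := by
  set I : Ideal K[X] := Ideal.span {T₀, T₁, T₂} with hI
  have hT0 : T₀ ∈ I := Ideal.subset_span (by simp)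
  have hT1 : T₁ ∈ I := Ideal.subset_span (by simp)
  have hT2 : T₂ ∈ I := Ideal.subset_span (by simp)
  obtain ⟨g, hg⟩ : ∃ g : K[X], I = Ideal.span {g} :=
    ⟨Submodule.IsPrincipal.generator I, (Ideal.span_singleton_generator I).symm⟩
  have hd : ∀ P ∈ I, g ∣ P := fun P hP => by
    rw [hg] at hP
    exact Ideal.mem_span_singleton.1 hP
  have hg0 : g ≠ 0 := by
    rintro rfl
    exact h0 (zero_dvd_iff.1 (hd T₀ hT0))
  have hdeg : g.degree = 0 := by
    by_contra hne
    obtain ⟨x, hx⟩ := IsAlgClosed.exists_root g hne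
    have hr : ∀ P ∈ I, P.eval x = 0 := fun P hP => by
      obtain ⟨Q, rfl⟩ := hd P hP
      rw [eval_mul, hx, zero_mul]
    exact h x (hr T₀ hT0) (hr T₁ hT1) (hr T₂ hT2)
  have hu : IsUnit g := isUnit_iff_degree_eq_zero.2 hdeg
  have h1 : (1 : K[X]) ∈ I := by
    rw [hg]
    exact Ideal.mem_span_singleton.2 hu.dvd
  rw [hI, Ideal.mem_span_insert] at h1
  obtain ⟨u, z, hz, h1⟩ := h1
  rw [Ideal.mem_span_pair] at hz
  obtain ⟨v, w, rfl⟩ := hz
  exact ⟨u, v, w, by rw [h1]; ring⟩

lemma eval_ne_zero_of_isCoprime {α β : K[X]} (h : IsCoprime α β) (x : K) (hα : α.eval x = 0)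
    (hβ : β.eval x = 0) : False := by
  obtain ⟨u, v, huv⟩ := h
  have := congrArg (eval x) huv
  rw [eval_add, eval_mul, eval_mul, hα, hβ, mul_zero, mul_zero, add_zero, eval_one] at this
  exact zero_ne_one this

/-! ## Gauss' lemma -/

theorem gauss_coprime3 [IsAlgClosed K] {α' β' α'' β'' : K[X]} (h' : IsCoprime α' β')
    (h'' : IsCoprime α'' β'') (hβ' : β' ≠ 0) (hβ'' : β'' ≠ 0) :
    Coprime3 (β' * β'') (α' * β'' + α'' * β') (α' * α'') := by
  refine coprime3_of_no_common_root (mul_ne_zero hβ' hβ'') fun x h0 h1 h2 => ?_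
  rw [eval_mul] at h0 h2
  rw [eval_add, eval_mul, eval_mul] at h1
  rcases mul_eq_zero.1 h0 with hb | hb
  · have ha : α'.eval x ≠ 0 := fun ha => eval_ne_zero_of_isCoprime h' x ha hb
    have ha2 : α''.eval x = 0 := (mul_eq_zero.1 h2).resolve_left ha
    have hb2 : β''.eval x ≠ 0 := fun hb2 => eval_ne_zero_of_isCoprime h'' x ha2 hb2
    rw [ha2, zero_mul, add_zero] at h1
    exact mul_ne_zero ha hb2 h1
  · have ha : α''.eval x ≠ 0 := fun ha => eval_ne_zero_of_isCoprime h'' x ha hb
    have ha2 : α'.eval x = 0 := (mul_eq_zero.1 h2).resolve_right ha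
    have hb2 : β'.eval x ≠ 0 := fun hb2 => eval_ne_zero_of_isCoprime h' x ha2 hb2
    rw [ha2, zero_mul, zero_add] at h1
    exact mul_ne_zero ha hb2 h1

theorem gauss_maxDeg3 {α' β' α'' β'' : K[X]} (hα' : α' ≠ 0) (hβ' : β' ≠ 0) (hα'' : α'' ≠ 0)
    (hβ'' : β'' ≠ 0) :
    maxDeg3 (β' * β'') (α' * β'' + α'' * β') (α' * α'') =
      max α'.natDegree β'.natDegree + max α''.natDegree β''.natDegree := by
  unfold maxDeg3
  have e0 : (β' * β'').natDegree = β'.natDegree + β''.natDegree := natDegree_mul hβ' hβ''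
  have e2 : (α' * α'').natDegree = α'.natDegree + α''.natDegree := natDegree_mul hα' hα''
  have ea : (α' * β'').natDegree = α'.natDegree + β''.natDegree := natDegree_mul hα' hβ''
  have eb : (α'' * β').natDegree = α''.natDegree + β'.natDegree := natDegree_mul hα'' hβ'
  have e1le : (α' * β'' + α'' * β').natDegree ≤
      max (α'.natDegree + β''.natDegree) (α''.natDegree + β'.natDegree) := by
    refine (natDegree_add_le _ _).trans ?_
    rw [ea, eb]
  rcases le_or_gt β'.natDegree α'.natDegree with c1 | c1 <;>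
    rcases le_or_gt β''.natDegree α''.natDegree with c2 | c2
  · rw [max_eq_left c1, max_eq_left c2, e0, e2]
    have : (α' * β'' + α'' * β').natDegree ≤ α'.natDegree + α''.natDegree :=
      e1le.trans (by rw [max_le_iff]; constructor <;> omega)
    omega
  · rw [max_eq_left c1, max_eq_right c2.le, e0, e2]
    have : (α' * β'' + α'' * β').natDegree = α'.natDegree + β''.natDegree := by
      rw [natDegree_add_eq_left_of_natDegree_lt (by rw [ea, eb]; omega), ea]
    omega
  · rw [max_eq_right c1.le, max_eq_left c2, e0, e2]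
    have : (α' * β'' + α'' * β').natDegree = α''.natDegree + β'.natDegree := by
      rw [natDegree_add_eq_right_of_natDegree_lt (by rw [ea, eb]; omega), eb]
    omega
  · rw [max_eq_right c1.le, max_eq_right c2.le, e0, e2]
    have : (α' * β'' + α'' * β').natDegree ≤ β'.natDegree + β''.natDegree :=
      e1le.trans (by rw [max_le_iff]; constructor <;> omega)
    omega

/-! ## The morphism attached to `y² = x³ + a x² + b x` -/

/-- `(α - tβ)²` -/
noncomputable def legG0 (α β : K[X]) : K[X] := (α - X * β) ^ 2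

/-- `2((α + tβ)(tα + bβ) + 2atαβ)` -/
noncomputable def legG1 (a b : K) (α β : K[X]) : K[X] :=
  2 * ((α + X * β) * (X * α + C b * β) + 2 * C a * X * α * β)

/-- `(tα - bβ)²` -/
noncomputable def legG2 (b : K) (α β : K[X]) : K[X] := (X * α - C b * β) ^ 2

lemma legG0_smul (g α β : K[X]) : legG0 (g * α) (g * β) = g ^ 2 * legG0 α β := by
  unfold legG0; ring

lemma legG1_smul (a b : K) (g α β : K[X]) : legG1 a b (g * α) (g * β) = g ^ 2 * legG1 a b α β := by
  unfold legG1; ring

lemma legG2_smul (b : K) (g α β : K[X]) : legG2 b (g * α) (g * β) = g ^ 2 * legG2 b α β := by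
  unfold legG2; ring

theorem morph_coprime3 [IsAlgClosed K] {a b : K} (h2 : (2 : K) ≠ 0) (hb : b ≠ 0)
    (hab : a ^ 2 - 4 * b ≠ 0) {α β : K[X]} (h : IsCoprime α β) (hne : α - X * β ≠ 0) :
    Coprime3 (legG0 α β) (legG1 a b α β) (legG2 b α β) := by
  refine coprime3_of_no_common_root (pow_ne_zero 2 hne) fun x h0 h1 h2' => ?_
  unfold legG0 at h0
  unfold legG1 at h1
  unfold legG2 at h2'
  simp only [eval_pow, eval_sub, eval_mul, eval_X, eval_add, eval_C, eval_ofNat] at h0 h1 h2'
  have e0 : α.eval x = x * β.eval x := by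
    have := pow_eq_zero_iff (two_ne_zero) |>.1 h0
    linear_combination this
  have e2 : x * α.eval x = b * β.eval x := by
    have := pow_eq_zero_iff (two_ne_zero) |>.1 h2'
    linear_combination this
  have hβ : β.eval x ≠ 0 := by
    intro hβ
    rw [hβ, mul_zero] at e0
    exact eval_ne_zero_of_isCoprime h x e0 hβ
  have hx2 : x ^ 2 = b := by
    have : (x ^ 2 - b) * β.eval x = 0 := by
      rw [e0] at e2
      linear_combination e2
    have := (mul_eq_zero.1 this).resolve_right hβ
    linear_combination this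
  have hx0 : x ≠ 0 := by
    rintro rfl
    apply hb
    rw [← hx2]
    ring
  -- the middle form
  have e1 : 4 * (β.eval x) ^ 2 * x * (2 * b + a * x) = 0 := by
    rw [e0] at h1
    have : 2 * ((x * β.eval x + x * β.eval x) * (x * (x * β.eval x) + b * β.eval x) +
        2 * a * x * (x * β.eval x) * β.eval x) =
        4 * (β.eval x) ^ 2 * x * (x ^ 2 + b + a * x) := by ring
    rw [this, hx2] at h1
    linear_combination h1
  have h4 : (4 : K) ≠ 0 := by
    have : (4 : K) = 2 * 2 := by norm_num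
    rw [this]
    exact mul_ne_zero h2 h2
  have e3 : 2 * b + a * x = 0 := by
    rcases mul_eq_zero.1 e1 with h' | h'
    · exact absurd h' (mul_ne_zero (mul_ne_zero h4 (pow_ne_zero 2 hβ)) hx0)
    · exact h'
  apply hab
  have : b * (a ^ 2 - 4 * b) = 0 := by
    have h5 : a * x = -2 * b := by linear_combination e3
    calc b * (a ^ 2 - 4 * b) = a ^ 2 * b - 4 * b ^ 2 := by ring
      _ = a ^ 2 * x ^ 2 - 4 * b ^ 2 := by rw [hx2]
      _ = (a * x) ^ 2 - 4 * b ^ 2 := by ring
      _ = 0 := by rw [h5]; ring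
  exact (mul_eq_zero.1 this).resolve_left hb

theorem morph_maxDeg3 {a b : K} {α β : K[X]} (hα : α ≠ 0) (hβ : β ≠ 0) :
    maxDeg3 (legG0 α β) (legG1 a b α β) (legG2 b α β) = 2 * (max α.natDegree β.natDegree + 1) := by
  set d := max α.natDegree β.natDegree with hd
  have hαd : α.natDegree ≤ d := le_max_left _ _
  have hβd : β.natDegree ≤ d := le_max_right _ _
  have hXα : (X * α).natDegree = α.natDegree + 1 := natDegree_X_mul hα
  have hXβ : (X * β).natDegree = β.natDegree + 1 := natDegree_X_mul hβ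
  have hCβ : (C b * β).natDegree ≤ β.natDegree := natDegree_C_mul_le _ _
  have l0 : (α - X * β).natDegree ≤ d + 1 :=
    (natDegree_sub_le _ _).trans (by rw [hXβ]; omega)
  have l2 : (X * α - C b * β).natDegree ≤ d + 1 :=
    (natDegree_sub_le _ _).trans (by rw [hXα]; omega)
  have l1a : (α + X * β).natDegree ≤ d + 1 :=
    (natDegree_add_le _ _).trans (by rw [hXβ]; omega)
  have l1b : (X * α + C b * β).natDegree ≤ d + 1 :=
    (natDegree_add_le _ _).trans (by rw [hXα]; omega)
  have g0 : (legG0 α β).natDegree ≤ 2 * (d + 1) := by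
    unfold legG0
    exact natDegree_pow_le.trans (by nlinarith)
  have g2 : (legG2 b α β).natDegree ≤ 2 * (d + 1) := by
    unfold legG2
    exact natDegree_pow_le.trans (by nlinarith)
  have g1 : (legG1 a b α β).natDegree ≤ 2 * (d + 1) := by
    unfold legG1
    refine (natDegree_mul_le).trans ?_
    have h2 : (2 : K[X]).natDegree = 0 := natDegree_ofNat 2
    rw [h2, zero_add]
    refine (natDegree_add_le _ _).trans (max_le ?_ ?_)
    · exact natDegree_mul_le.trans (by omega)
    · have : (2 * C a * X * α * β : K[X]) = C (2 * a) * (X * α * β) := by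
        rw [C_mul, C_ofNat]; ring
      rw [this]
      refine (natDegree_C_mul_le _ _).trans ?_
      refine natDegree_mul_le.trans ?_
      rw [hXα]
      omega
  unfold maxDeg3
  rcases le_or_gt β.natDegree α.natDegree with c | c
  · -- `G₂` attains the degree
    have : (X * α - C b * β).natDegree = α.natDegree + 1 := by
      rw [natDegree_sub_eq_left_of_natDegree_lt (by rw [hXα]; omega), hXα]
    have e : (legG2 b α β).natDegree = 2 * (d + 1) := by
      unfold legG2
      rw [natDegree_pow, this, hd, max_eq_left c]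
    omega
  · have : (α - X * β).natDegree = β.natDegree + 1 := by
      rw [natDegree_sub_eq_right_of_natDegree_lt (by rw [hXβ]; omega), hXβ]
    have e : (legG0 α β).natDegree = 2 * (d + 1) := by
      unfold legG0
      rw [natDegree_pow, this, hd, max_eq_right c.le]
    omega

end Fermat.Agent.S13Lib.Torsion
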