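/-
S13 / torsion count, part 2: the `x`-coordinate of `n • P` on `y² = x³ + a x² + b x` as a rational
function `A_n / B_n` of `x(P)` of degree exactly `n²` (no division polynomials: the degree comes
from the exact parallelogram law for degrees over the function field `K(t)`).
-/
import Fermat.Agent.Lib.S13.Torsion.PolyHeight
import Fermat.Agent.Lib.S05.Legendre

set_option autoImplicit false

open Polynomial WeierstrassCurve WeierstrassCurve.Affine

namespace Fermat.Agent.S13Lib.Torsion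

open Fermat.Agent.S05Lib

variable {K : Type*} [Field K]

/-! ## Reduction of a pair of polynomials to lowest terms -/

theorem exists_reduction (A B : K[X]) (hB : B ≠ 0) :
    ∃ g α β : K[X], g ≠ 0 ∧ A = g * α ∧ B = g * β ∧ IsCoprime α β := by
  set I : Ideal K[X] := Ideal.span {A, B} with hI
  have hA : A ∈ I := Ideal.subset_span (by simp)
  have hB' : B ∈ I := Ideal.subset_span (by simp)
  obtain ⟨g, hg⟩ : ∃ g : K[X], I = Ideal.span {g} :=
    ⟨Submodule.IsPrincipal.generator I, (Ideal.span_singleton_generator I).symm⟩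
  obtain ⟨α, hα⟩ : g ∣ A := by rw [hg] at hA; exact Ideal.mem_span_singleton.1 hA
  obtain ⟨β, hβ⟩ : g ∣ B := by rw [hg] at hB'; exact Ideal.mem_span_singleton.1 hB'
  have hg0 : g ≠ 0 := by
    rintro rfl
    rw [zero_mul] at hβ
    exact hB hβ
  have hgI : g ∈ I := by rw [hg]; exact Ideal.mem_span_singleton_self g
  rw [hI, Ideal.mem_span_pair] at hgI
  obtain ⟨u, v, huv⟩ := hgI
  refine ⟨g, α, β, hg0, hα, hβ, u, v, ?_⟩
  have : g * (u * α + v * β) = g * 1 := by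
    rw [mul_one]
    calc g * (u * α + v * β) = u * (g * α) + v * (g * β) := by ring
      _ = g := by rw [← hα, ← hβ, huv]
  exact mul_left_cancel₀ hg0 this

/-! ## The sequence `(A_n, B_n)` -/

/-- the pairs `(A_n, B_n)` with `x(n • P) = A_n(x(P)) / B_n(x(P))` -/
noncomputable def mulAB (a b : K) : ℕ → K[X] × K[X]
  | 0 => (1, 0)
  | 1 => (X, 1)
  | 2 => ((X ^ 2 - C b) ^ 2, C 4 * X * (X ^ 2 + C a * X + C b))
  | (n + 3) =>
    (legG1 a b (mulAB a b (n + 2)).1 (mulAB a b (n + 2)).2 * (mulAB a b (n + 1)).2 -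
      legG0 (mulAB a b (n + 2)).1 (mulAB a b (n + 2)).2 * (mulAB a b (n + 1)).1,
     legG0 (mulAB a b (n + 2)).1 (mulAB a b (n + 2)).2 * (mulAB a b (n + 1)).2)

/-- the numerator -/
noncomputable def mulA (a b : K) (n : ℕ) : K[X] := (mulAB a b n).1

/-- the denominator -/
noncomputable def mulB (a b : K) (n : ℕ) : K[X] := (mulAB a b n).2

lemma mulA_one (a b : K) : mulA a b 1 = X := rfl
lemma mulB_one (a b : K) : mulB a b 1 = 1 := rfl
lemma mulA_two (a b : K) : mulA a b 2 = (X ^ 2 - C b) ^ 2 := rfl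
lemma mulB_two (a b : K) : mulB a b 2 = C 4 * X * (X ^ 2 + C a * X + C b) := rfl

lemma mulA_add_three (a b : K) (n : ℕ) : mulA a b (n + 3) =
    legG1 a b (mulA a b (n + 2)) (mulB a b (n + 2)) * mulB a b (n + 1) -
      legG0 (mulA a b (n + 2)) (mulB a b (n + 2)) * mulA a b (n + 1) := rfl

lemma mulB_add_three (a b : K) (n : ℕ) : mulB a b (n + 3) =
    legG0 (mulA a b (n + 2)) (mulB a b (n + 2)) * mulB a b (n + 1) := rfl

/-- the sum identity (formal) -/
lemma mul_sum_identity (a b : K) (n : ℕ) :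
    (mulA a b (n + 3) * mulB a b (n + 1) + mulA a b (n + 1) * mulB a b (n + 3)) *
        legG0 (mulA a b (n + 2)) (mulB a b (n + 2)) =
      legG1 a b (mulA a b (n + 2)) (mulB a b (n + 2)) * (mulB a b (n + 3) * mulB a b (n + 1)) := by
  rw [mulA_add_three, mulB_add_three]
  ring

/-! ## Evaluation of the forms -/

lemma eval_legG0 (α β : K[X]) (x : K) : (legG0 α β).eval x = (α.eval x - x * β.eval x) ^ 2 := by
  simp [legG0]

lemma eval_legG1 (a b : K) (α β : K[X]) (x : K) : (legG1 a b α β).eval x =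
    2 * ((α.eval x + x * β.eval x) * (x * α.eval x + b * β.eval x) +
      2 * a * x * α.eval x * β.eval x) := by
  simp [legG1]

lemma eval_legG2 (b : K) (α β : K[X]) (x : K) : (legG2 b α β).eval x =
    (x * α.eval x - b * β.eval x) ^ 2 := by
  simp [legG2]

/-! ## The curve -/

section Curve

variable {W : WeierstrassCurve K} {a b : K}

lemma isLeg_Δ_eq (hW : IsLeg W a b) : W.Δ = 16 * b ^ 2 * (a ^ 2 - 4 * b) := by
  simp only [WeierstrassCurve.Δ, WeierstrassCurve.b₂, WeierstrassCurve.b₄, WeierstrassCurve.b₆,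
    WeierstrassCurve.b₈, hW.a₁, hW.a₂, hW.a₃, hW.a₄, hW.a₆]
  ring

lemma isLeg_nonsingular_of_equation (hW : IsLeg W a b) (h2 : (2 : K) ≠ 0) (hb : b ≠ 0)
    (hab : a ^ 2 - 4 * b ≠ 0) {x y : K} (h : y ^ 2 = x ^ 3 + a * x ^ 2 + b * x) :
    W.toAffine.Nonsingular x y := by
  have hΔ : W.Δ ≠ 0 := by
    rw [isLeg_Δ_eq hW]
    have h16 : (16 : K) ≠ 0 := by
      have : (16 : K) = 2 ^ 4 := by norm_num
      rw [this]
      exact pow_ne_zero 4 h2
    exact mul_ne_zero (mul_ne_zero h16 (pow_ne_zero 2 hb)) hab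
  exact (W.toAffine.equation_iff_nonsingular_of_Δ_ne_zero hΔ).1 ((hW.equation_iff x y).2 h)

/-- the polynomial `t (t² + a t + b)` -/
noncomputable def cubicPoly (a b : K) : K[X] := X * (X ^ 2 + C a * X + C b)

lemma cubicPoly_ne_zero (a b : K) : cubicPoly a b ≠ 0 := by
  unfold cubicPoly
  refine mul_ne_zero X_ne_zero ?_
  have h : (X ^ 2 + C a * X + C b : K[X]) = X ^ 2 + (C a * X + C b) := by ring
  rw [h]
  refine (monic_X_pow_add ?_).ne_zero
  exact lt_of_le_of_lt (degree_linear_le) (by norm_num)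

lemma eval_cubicPoly (a b x : K) : (cubicPoly a b).eval x = x * (x ^ 2 + a * x + b) := by
  simp [cubicPoly]

variable [DecidableEq K]

/-- pointwise validity of `(A_n, B_n)` off a finite set of `x`-coordinates -/
def PtOK (W : WeierstrassCurve K) (a b : K) (n : ℕ) (Bad : Finset K) : Prop :=
  ∀ (x₀ y₀ : K) (h : W.toAffine.Nonsingular x₀ y₀), x₀ ∉ Bad →
    (mulB a b n).eval x₀ ≠ 0 ∧ ∃ (x' y' : K) (h' : W.toAffine.Nonsingular x' y'),
      n • Point.some x₀ y₀ h = Point.some x' y' h' ∧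
        x' * (mulB a b n).eval x₀ = (mulA a b n).eval x₀

lemma ptOK_one (W : WeierstrassCurve K) (a b : K) : PtOK W a b 1 ∅ := by
  intro x₀ y₀ h _
  rw [mulB_one, mulA_one, eval_one, eval_X]
  exact ⟨one_ne_zero, x₀, y₀, h, one_nsmul _, mul_one _⟩

lemma ptOK_two (hW : IsLeg W a b) (h2 : (2 : K) ≠ 0) :
    PtOK W a b 2 (cubicPoly a b).roots.toFinset := by
  intro x₀ y₀ h hx
  have hroot : (cubicPoly a b).eval x₀ ≠ 0 := by
    intro h0
    apply hx
    rw [Multiset.mem_toFinset, mem_roots (cubicPoly_ne_zero a b)]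
    exact h0
  rw [eval_cubicPoly] at hroot
  have q := hW.eq_of_nonsingular h
  have hy2 : y₀ ^ 2 = x₀ * (x₀ ^ 2 + a * x₀ + b) := by rw [q]; ring
  have hy : y₀ ≠ 0 := by
    rintro rfl
    apply hroot
    rw [← hy2]
    ring
  have h4 : (4 : K) ≠ 0 := by
    have : (4 : K) = 2 * 2 := by norm_num
    rw [this]
    exact mul_ne_zero h2 h2
  have hB : (mulB a b 2).eval x₀ = 4 * y₀ ^ 2 := by
    rw [mulB_two, hy2]
    simp
    ring
  refine ⟨by rw [hB]; exact mul_ne_zero h4 (pow_ne_zero 2 hy), ?_⟩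
  obtain ⟨w, h', e⟩ := hW.add_self_of_Y_ne_zero h2 h hy
  refine ⟨_, w, h', by rw [two_nsmul]; exact e, ?_⟩
  rw [hW.dup_formula h2 h hy, hB, mulA_two]
  have : (4 : K) * y₀ ^ 2 ≠ 0 := mul_ne_zero h4 (pow_ne_zero 2 hy)
  rw [div_mul_cancel₀ _ this]
  simp

/-- the inductive step at a point, together with the product relation -/
theorem pt_step (hW : IsLeg W a b) (n : ℕ) {x₀ y₀ : K} (h : W.toAffine.Nonsingular x₀ y₀)
    (hB2 : (mulB a b (n + 2)).eval x₀ ≠ 0) {x₁ y₁ : K} (h₁ : W.toAffine.Nonsingular x₁ y₁)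
    (e₁ : (n + 2) • Point.some x₀ y₀ h = Point.some x₁ y₁ h₁)
    (r₁ : x₁ * (mulB a b (n + 2)).eval x₀ = (mulA a b (n + 2)).eval x₀)
    (hB1 : (mulB a b (n + 1)).eval x₀ ≠ 0) {x₂ y₂ : K} (h₂ : W.toAffine.Nonsingular x₂ y₂)
    (e₂ : (n + 1) • Point.some x₀ y₀ h = Point.some x₂ y₂ h₂)
    (r₂ : x₂ * (mulB a b (n + 1)).eval x₀ = (mulA a b (n + 1)).eval x₀)
    (hne : (mulA a b (n + 2) - X * mulB a b (n + 2)).eval x₀ ≠ 0) :
    (mulB a b (n + 3)).eval x₀ ≠ 0 ∧ ∃ (x' y' : K) (h' : W.toAffine.Nonsingular x' y'),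
      (n + 3) • Point.some x₀ y₀ h = Point.some x' y' h' ∧
        x' * (mulB a b (n + 3)).eval x₀ = (mulA a b (n + 3)).eval x₀ ∧
        (mulA a b (n + 3) * mulA a b (n + 1) * legG0 (mulA a b (n + 2)) (mulB a b (n + 2)) -
          legG2 b (mulA a b (n + 2)) (mulB a b (n + 2)) *
            (mulB a b (n + 3) * mulB a b (n + 1))).eval x₀ = 0 := by
  set A₂ := (mulA a b (n + 2)).eval x₀ with hA₂
  set B₂ := (mulB a b (n + 2)).eval x₀ with hB₂
  set A₁ := (mulA a b (n + 1)).eval x₀ with hA₁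
  set B₁ := (mulB a b (n + 1)).eval x₀ with hB₁
  rw [eval_sub, eval_mul, eval_X, ← hA₂, ← hB₂, ← r₁] at hne
  have hx : x₁ ≠ x₀ := by
    rintro rfl
    apply hne
    ring
  have hd : x₁ - x₀ ≠ 0 := sub_ne_zero.2 hx
  obtain ⟨z₁, w₁, h₁', z₂, w₂, h₂', ea, es, hs, hm⟩ := hW.add_sub_of_X_ne h₁ h hx
  have e3 : (n + 3) • Point.some x₀ y₀ h = Point.some z₁ w₁ h₁' := by
    rw [show n + 3 = (n + 2) + 1 from rfl, succ_nsmul, e₁, ea]
  have e1' : Point.some z₂ w₂ h₂' = Point.some x₂ y₂ h₂ := by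
    rw [← es, ← e₁, ← e₂, show n + 2 = (n + 1) + 1 from rfl, succ_nsmul, add_sub_cancel_right]
  have hz₂ : z₂ = x₂ := by
    injection e1'
  subst hz₂
  have eG0 : (legG0 (mulA a b (n + 2)) (mulB a b (n + 2))).eval x₀ = (B₂ * (x₁ - x₀)) ^ 2 := by
    rw [eval_legG0, ← hA₂, ← hB₂, ← r₁]; ring
  have eG1 : (legG1 a b (mulA a b (n + 2)) (mulB a b (n + 2))).eval x₀ =
      2 * B₂ ^ 2 * ((x₁ + x₀) * (x₁ * x₀ + b) + 2 * a * x₁ * x₀) := by
    rw [eval_legG1, ← hA₂, ← hB₂, ← r₁]; ring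
  have eG2 : (legG2 b (mulA a b (n + 2)) (mulB a b (n + 2))).eval x₀ = (B₂ * (x₁ * x₀ - b)) ^ 2 := by
    rw [eval_legG2, ← hA₂, ← hB₂, ← r₁]; ring
  have eB3 : (mulB a b (n + 3)).eval x₀ = (B₂ * (x₁ - x₀)) ^ 2 * B₁ := by
    rw [mulB_add_three, eval_mul, eG0]
  have eA3 : (mulA a b (n + 3)).eval x₀ =
      2 * B₂ ^ 2 * ((x₁ + x₀) * (x₁ * x₀ + b) + 2 * a * x₁ * x₀) * B₁ -
        (B₂ * (x₁ - x₀)) ^ 2 * (z₂ * B₁) := by
    rw [mulA_add_three, eval_sub, eval_mul, eval_mul, eG0, eG1, ← hA₁, ← hB₁, ← r₂]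
  have hs' : (z₁ + z₂) * (x₁ - x₀) ^ 2 =
      2 * ((x₁ + x₀) * (x₁ * x₀ + b) + 2 * a * x₁ * x₀) := by
    rw [hs, div_mul_cancel₀ _ (pow_ne_zero 2 hd)]
  have hm' : z₁ * z₂ * (x₁ - x₀) ^ 2 = (x₁ * x₀ - b) ^ 2 := by
    rw [hm, div_mul_cancel₀ _ (pow_ne_zero 2 hd)]
  refine ⟨by rw [eB3]; exact mul_ne_zero (pow_ne_zero 2 (mul_ne_zero hB2 hd)) hB1,
    z₁, w₁, h₁', e3, ?_, ?_⟩
  · rw [eB3, eA3]
    linear_combination B₂ ^ 2 * B₁ * hs'
  · rw [eval_sub, eval_mul, eval_mul, eval_mul, eval_mul, eG0, eG2, eB3, eA3, ← hA₁, ← hB₁, ← r₂]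
    linear_combination (-(B₁ ^ 2 * B₂ ^ 4 * (x₁ - x₀) ^ 2 * z₂)) * hs' +
      (B₁ ^ 2 * B₂ ^ 4 * (x₁ - x₀) ^ 2) * hm'

end Curve

/-! ## The main induction -/

section Main

variable {W : WeierstrassCurve K} {a b : K}

lemma ne_zero_of_red {α β : K[X]} (h : IsCoprime α β)
    (hd : max α.natDegree β.natDegree ≠ 0) : α ≠ 0 ∧ β ≠ 0 := by
  constructor
  · rintro rfl
    have hu : IsUnit β := isCoprime_zero_left.1 h
    apply hd
    rw [natDegree_zero, natDegree_eq_zero_of_isUnit hu, max_self]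
  · rintro rfl
    have hu : IsUnit α := isCoprime_zero_right.1 h
    apply hd
    rw [natDegree_zero, natDegree_eq_zero_of_isUnit hu, max_self]

/-- a coprime pair `(α, β)` with `α = t β` has height `1` -/
lemma height_of_eq_X_mul {α β : K[X]} (h : IsCoprime α β) (he : α - X * β = 0) :
    max α.natDegree β.natDegree = 1 := by
  have hα : α = X * β := by linear_combination he
  subst hα
  obtain ⟨u, v, huv⟩ := h
  have hu : IsUnit β := IsUnit.of_mul_eq_one (u * X + v) (by linear_combination huv)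
  have hβ0 : β ≠ 0 := hu.ne_zero
  rw [natDegree_X_mul hβ0, natDegree_eq_zero_of_isUnit hu]
  rfl

/-- a coprime pair `(α, β)` with `t α = b β` has height `1` -/
lemma height_of_X_mul_eq {b : K} (hb : b ≠ 0) {α β : K[X]} (h : IsCoprime α β)
    (he : X * α - C b * β = 0) : max α.natDegree β.natDegree = 1 := by
  have hβ : β = C b⁻¹ * X * α := by
    have h1 : C b * β = X * α := by linear_combination -he
    calc β = C b⁻¹ * (C b * β) := by
          rw [← mul_assoc, ← C_mul, inv_mul_cancel₀ hb, C_1, one_mul]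
      _ = C b⁻¹ * X * α := by rw [h1]; ring
  subst hβ
  obtain ⟨u, v, huv⟩ := h
  have hu : IsUnit α := IsUnit.of_mul_eq_one (u + v * C b⁻¹ * X) (by linear_combination huv)
  have hα0 : α ≠ 0 := hu.ne_zero
  have : (C b⁻¹ * X * α).natDegree = 1 := by
    rw [mul_assoc, natDegree_C_mul (inv_ne_zero hb), natDegree_X_mul hα0,
      natDegree_eq_zero_of_isUnit hu]
  rw [this, natDegree_eq_zero_of_isUnit hu]
  rfl

variable [DecidableEq K]

/-- the reduced form of `(A_n, B_n)` has height `n²`, and `(A_n, B_n)` computes `x(n • P)` off a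
finite set -/
structure MulData (W : WeierstrassCurve K) (a b : K) (n : ℕ) : Prop where
  red : ∃ g α β : K[X], g ≠ 0 ∧ mulA a b n = g * α ∧ mulB a b n = g * β ∧ IsCoprime α β ∧
    max α.natDegree β.natDegree = n ^ 2
  pt : ∃ Bad : Finset K, PtOK W a b n Bad

lemma mulData_one (W : WeierstrassCurve K) (a b : K) : MulData W a b 1 where
  red := ⟨1, X, 1, one_ne_zero, by rw [mulA_one, one_mul], by rw [mulB_one, one_mul],
    isCoprime_one_right, by simp⟩
  pt := ⟨∅, ptOK_one W a b⟩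

variable [IsAlgClosed K]

lemma mulData_two (hW : IsLeg W a b) (h2 : (2 : K) ≠ 0) (hb : b ≠ 0)
    (hab : a ^ 2 - 4 * b ≠ 0) : MulData W a b 2 where
  red := by
    have h4 : (4 : K) ≠ 0 := by
      have : (4 : K) = 2 * 2 := by norm_num
      rw [this]
      exact mul_ne_zero h2 h2
    refine ⟨1, (X ^ 2 - C b) ^ 2, C 4 * X * (X ^ 2 + C a * X + C b), one_ne_zero,
      by rw [mulA_two, one_mul], by rw [mulB_two, one_mul], ?_, ?_⟩
    · rw [Polynomial.isCoprime_iff_aeval_ne_zero_of_isAlgClosed (k := K) K]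
      intro x
      by_contra hcon
      rw [not_or, not_not, not_not] at hcon
      obtain ⟨e1, e2⟩ := hcon
      simp only [coe_aeval_eq_eval, eval_pow, eval_sub, eval_X, eval_C, eval_mul, eval_add] at e1 e2
      have hx2 : x ^ 2 = b := by
        have := pow_eq_zero_iff (two_ne_zero) |>.1 e1
        linear_combination this
      have hx0 : x ≠ 0 := by
        rintro rfl
        apply hb
        rw [← hx2]
        ring
      have e3 : x ^ 2 + a * x + b = 0 := by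
        rcases mul_eq_zero.1 e2 with h' | h'
        · exact absurd h' (mul_ne_zero h4 hx0)
        · exact h'
      apply hab
      have h5 : a * x = -2 * b := by rw [hx2] at e3; linear_combination e3
      have : b * (a ^ 2 - 4 * b) = 0 := by
        calc b * (a ^ 2 - 4 * b) = a ^ 2 * b - 4 * b ^ 2 := by ring
          _ = a ^ 2 * x ^ 2 - 4 * b ^ 2 := by rw [hx2]
          _ = (a * x) ^ 2 - 4 * b ^ 2 := by ring
          _ = 0 := by rw [h5]; ring
      exact (mul_eq_zero.1 this).resolve_left hb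
    · have d1 : ((X ^ 2 - C b : K[X]) ^ 2).natDegree = 4 := by
        rw [natDegree_pow, natDegree_X_pow_sub_C]
      have d2 : (C 4 * X * (X ^ 2 + C a * X + C b) : K[X]).natDegree ≤ 3 := by
        compute_degree
      rw [d1]
      exact max_eq_left (by omega)
  pt := ⟨_, ptOK_two hW h2⟩

variable [CharZero K]

theorem mulData_step (hW : IsLeg W a b) (hb : b ≠ 0) (hab : a ^ 2 - 4 * b ≠ 0) (n : ℕ)
    (H1 : MulData W a b (n + 1)) (H2 : MulData W a b (n + 2)) : MulData W a b (n + 3) := by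
  have h2 : (2 : K) ≠ 0 := two_ne_zero
  obtain ⟨g, α, β, hg, hA, hB, hcop, hdeg⟩ := H2.red
  obtain ⟨g'', α'', β'', hg'', hA'', hB'', hcop'', hdeg''⟩ := H1.red
  obtain ⟨Bad₂, hpt₂⟩ := H2.pt
  obtain ⟨Bad₁, hpt₁⟩ := H1.pt
  have hn2 : 4 ≤ (n + 2) ^ 2 := by
    have : (n + 2) ^ 2 = (n ^ 2 + 4 * n) + 4 := by ring
    rw [this]
    exact Nat.le_add_left _ _
  have hn1 : 1 ≤ (n + 1) ^ 2 := by
    have : (n + 1) ^ 2 = (n ^ 2 + 2 * n) + 1 := by ring
    rw [this]
    exact Nat.le_add_left _ _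
  obtain ⟨hα0, hβ0⟩ := ne_zero_of_red hcop (by rw [hdeg]; omega)
  obtain ⟨hα0'', hβ0''⟩ := ne_zero_of_red hcop'' (by rw [hdeg'']; omega)
  have hne : α - X * β ≠ 0 := by
    intro he
    have := height_of_eq_X_mul hcop he
    omega
  have hne2 : X * α - C b * β ≠ 0 := by
    intro he
    have := height_of_X_mul_eq hb hcop he
    omega
  have hD : mulA a b (n + 2) - X * mulB a b (n + 2) ≠ 0 := by
    rw [hA, hB]
    have : g * α - X * (g * β) = g * (α - X * β) := by ring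
    rw [this]
    exact mul_ne_zero hg hne
  have hB1 : mulB a b (n + 1) ≠ 0 := by rw [hB'']; exact mul_ne_zero hg'' hβ0''
  have hG0 : legG0 (mulA a b (n + 2)) (mulB a b (n + 2)) ≠ 0 := pow_ne_zero 2 hD
  have hB3 : mulB a b (n + 3) ≠ 0 := by
    rw [mulB_add_three]
    exact mul_ne_zero hG0 hB1
  -- pointwise validity and the product relation
  set Bad : Finset K := Bad₂ ∪ Bad₁ ∪ (mulA a b (n + 2) - X * mulB a b (n + 2)).roots.toFinset
    with hBad
  have hstep : ∀ (x₀ y₀ : K) (h : W.toAffine.Nonsingular x₀ y₀), x₀ ∉ Bad →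
      (mulB a b (n + 3)).eval x₀ ≠ 0 ∧ ∃ (x' y' : K) (h' : W.toAffine.Nonsingular x' y'),
      (n + 3) • Point.some x₀ y₀ h = Point.some x' y' h' ∧
        x' * (mulB a b (n + 3)).eval x₀ = (mulA a b (n + 3)).eval x₀ ∧
        (mulA a b (n + 3) * mulA a b (n + 1) * legG0 (mulA a b (n + 2)) (mulB a b (n + 2)) -
          legG2 b (mulA a b (n + 2)) (mulB a b (n + 2)) *
            (mulB a b (n + 3) * mulB a b (n + 1))).eval x₀ = 0 := by
    intro x₀ y₀ h hx
    rw [hBad, Finset.mem_union, Finset.mem_union, not_or, not_or] at hx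
    obtain ⟨⟨hx2, hx1⟩, hx3⟩ := hx
    obtain ⟨hb2, x₁, y₁, h₁, e₁, r₁⟩ := hpt₂ x₀ y₀ h hx2
    obtain ⟨hb1, x₂, y₂, h₂', e₂, r₂⟩ := hpt₁ x₀ y₀ h hx1
    have hne' : (mulA a b (n + 2) - X * mulB a b (n + 2)).eval x₀ ≠ 0 := by
      intro h0
      apply hx3
      rw [Multiset.mem_toFinset, mem_roots hD]
      exact h0
    exact pt_step hW n h hb2 h₁ e₁ r₁ hb1 h₂' e₂ r₂ hne'
  -- the product identity
  have hprod : mulA a b (n + 3) * mulA a b (n + 1) * legG0 (mulA a b (n + 2)) (mulB a b (n + 2)) -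
      legG2 b (mulA a b (n + 2)) (mulB a b (n + 2)) * (mulB a b (n + 3) * mulB a b (n + 1)) = 0 := by
    apply eq_zero_of_infinite_isRoot
    refine Set.Infinite.mono ?_ (Set.Finite.infinite_compl (Finset.finite_toSet Bad))
    intro x₀ hx₀
    have hx : x₀ ∉ Bad := hx₀
    obtain ⟨y₀, hy₀⟩ := IsAlgClosed.exists_pow_nat_eq (x₀ ^ 3 + a * x₀ ^ 2 + b * x₀)
      (show 0 < 2 by norm_num)
    have hns := isLeg_nonsingular_of_equation hW h2 hb hab hy₀
    obtain ⟨-, -, -, -, -, -, hz⟩ := hstep x₀ y₀ hns hx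
    exact hz
  have hprod' : mulA a b (n + 3) * mulA a b (n + 1) * legG0 (mulA a b (n + 2)) (mulB a b (n + 2)) =
      legG2 b (mulA a b (n + 2)) (mulB a b (n + 2)) * (mulB a b (n + 3) * mulB a b (n + 1)) :=
    sub_eq_zero.1 hprod
  have hsum := mul_sum_identity a b n
  -- reduce `(A_{n+3}, B_{n+3})`
  obtain ⟨g', α', β', hg', hA', hB', hcop'⟩ :=
    exists_reduction (mulA a b (n + 3)) (mulB a b (n + 3)) hB3
  have hβ0' : β' ≠ 0 := by
    rintro rfl
    rw [mul_zero] at hB'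
    exact hB3 hB'
  have hgg : g' * g'' * g ^ 2 ≠ 0 := mul_ne_zero (mul_ne_zero hg' hg'') (pow_ne_zero 2 hg)
  rw [hA', hB', hA'', hB'', hA, hB, legG0_smul, legG1_smul] at hsum
  rw [hA', hB', hA'', hB'', hA, hB, legG0_smul, legG2_smul] at hprod'
  have hT1 : (α' * β'' + α'' * β') * legG0 α β = legG1 a b α β * (β' * β'') := by
    apply mul_left_cancel₀ hgg
    linear_combination hsum
  have hT2 : (α' * α'') * legG0 α β = legG2 b α β * (β' * β'') := by
    apply mul_left_cancel₀ hgg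
    linear_combination hprod'
  have hα0' : α' ≠ 0 := by
    rintro rfl
    rw [zero_mul, zero_mul] at hT2
    have hG2 : legG2 b α β ≠ 0 := pow_ne_zero 2 hne2
    exact mul_ne_zero hG2 (mul_ne_zero hβ0' hβ0'') hT2.symm
  have hTc := gauss_coprime3 hcop' hcop'' hβ0' hβ0''
  have hGc := morph_coprime3 (a := a) h2 hb hab hcop hne
  have hmax := maxDeg3_eq_of_prop hTc hGc (mul_ne_zero hβ0' hβ0'') hT1 hT2
  rw [gauss_maxDeg3 hα0' hβ0' hα0'' hβ0'', morph_maxDeg3 hα0 hβ0, hdeg, hdeg''] at hmax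
  refine ⟨⟨g', α', β', hg', hA', hB', hcop', ?_⟩, Bad, fun x₀ y₀ h hx => ?_⟩
  · have : (n + 3) ^ 2 + (n + 1) ^ 2 = 2 * ((n + 2) ^ 2 + 1) := by ring
    exact Nat.add_right_cancel (hmax.trans this.symm)
  · obtain ⟨h1, x', y', h', e, r, -⟩ := hstep x₀ y₀ h hx
    exact ⟨h1, x', y', h', e, r⟩

/-- **the multiplication-by-`n` data for every `n ≥ 1`** -/
theorem mulData (hW : IsLeg W a b) (hb : b ≠ 0) (hab : a ^ 2 - 4 * b ≠ 0) (n : ℕ) :
    MulData W a b (n + 1) := by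
  have h2 : (2 : K) ≠ 0 := two_ne_zero
  have key : ∀ n : ℕ, MulData W a b (n + 1) ∧ MulData W a b (n + 2) := by
    intro n
    induction n with
    | zero => exact ⟨mulData_one W a b, mulData_two hW h2 hb hab⟩
    | succ n ih => exact ⟨ih.2, mulData_step hW hb hab n ih.1 ih.2⟩
  exact (key n).1

end Main

end Fermat.Agent.S13Lib.Torsion
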