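/-
S13 / torsion count, part 3: `|E[n]| = n²` for `E : y² = x³ + a x² + b x` over an algebraically
closed field of characteristic `0`.

A rational function `α / β` of degree `d ≥ 1` in lowest terms takes all but finitely many values
exactly `d` times (`exists_bad_values`); applied to `x(n • P) = A_n / B_n (x(P))` of degree `n²`
(`Torsion/MulX.lean`) this shows that a generic fibre of `[n]` has exactly `n²` points, and every
nonempty fibre of a homomorphism is a coset of its kernel.
-/
import Fermat.Agent.Lib.S13.Torsion.MulX

set_option autoImplicit false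

open Polynomial WeierstrassCurve WeierstrassCurve.Affine

namespace Fermat.Agent.S13Lib.Torsion

open Fermat.Agent.S05Lib

variable {K : Type*} [Field K]

/-! ## Generic fibres of a rational function -/

section Fibre

variable [IsAlgClosed K] [CharZero K]

omit [IsAlgClosed K] in
lemma wronskian_ne_zero {α β : K[X]} (hcop : IsCoprime α β)
    (hd : max α.natDegree β.natDegree ≠ 0) :
    derivative α * β - α * derivative β ≠ 0 := by
  intro hW
  have hW' : derivative α * β = α * derivative β := sub_eq_zero.1 hW
  have key : ∀ {p q : K[X]}, IsCoprime p q → p ∣ derivative p * q → p.natDegree = 0 := by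
    intro p q hpq hdvd
    have h1 : p ∣ derivative p := hpq.dvd_of_dvd_mul_right hdvd
    by_contra hne
    have hp0 : p ≠ 0 := by
      rintro rfl
      exact hne natDegree_zero
    have hd0 : derivative p ≠ 0 := derivative_ne_zero.2 hne
    have h2 := degree_le_of_dvd h1 hd0
    exact absurd (degree_derivative_lt hp0) (not_lt.2 h2)
  have hα : α.natDegree = 0 := key hcop ⟨derivative β, by rw [hW']⟩
  have hβ : β.natDegree = 0 := key hcop.symm ⟨derivative α, by rw [mul_comm, ← hW', mul_comm]⟩
  apply hd
  rw [hα, hβ, max_self]

variable [DecidableEq K]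

/-- a rational function `α / β` in lowest terms of degree `d ≥ 1` takes all but finitely many values
`c` exactly `d` times: `α - c β` has `d` distinct roots -/
theorem exists_bad_values {α β : K[X]} (hcop : IsCoprime α β) {d : ℕ}
    (hd : max α.natDegree β.natDegree = d) (hd0 : d ≠ 0) :
    ∃ Cbad : Finset K, ∀ c ∉ Cbad, α - C c * β ≠ 0 ∧ (α - C c * β).roots.toFinset.card = d := by
  set Wr := derivative α * β - α * derivative β with hWr
  have hWr0 : Wr ≠ 0 := wronskian_ne_zero hcop (by rw [hd]; exact hd0)
  refine ⟨insert (α.coeff d / β.coeff d) (Wr.roots.toFinset.image fun x => α.eval x / β.eval x),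
    fun c hc => ?_⟩
  rw [Finset.mem_insert, not_or] at hc
  obtain ⟨hc1, hc2⟩ := hc
  set p := α - C c * β with hp
  -- the coefficient of degree `d`
  have hcoeff : p.coeff d ≠ 0 := by
    rw [hp, coeff_sub, coeff_C_mul]
    by_cases hβd : β.coeff d = 0
    · rw [hβd, mul_zero, sub_zero]
      have hβn : β.natDegree ≠ d := by
        intro h
        have hβ0 : β = 0 := by
          rw [← leadingCoeff_eq_zero, leadingCoeff, h]
          exact hβd
        rw [hβ0, natDegree_zero] at h
        exact hd0 h.symm
      have hαn : α.natDegree = d := by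
        rcases max_choice α.natDegree β.natDegree with h | h
        · rw [← hd, h]
        · rw [h] at hd
          exact absurd hd hβn
      have hα0 : α ≠ 0 := by
        rintro rfl
        rw [natDegree_zero] at hαn
        exact hd0 hαn.symm
      rw [← hαn]
      exact leadingCoeff_ne_zero.2 hα0
    · intro h0
      apply hc1
      rw [eq_div_iff hβd]
      linear_combination -h0
  have hp0 : p ≠ 0 := by
    intro h
    rw [h, coeff_zero] at hcoeff
    exact hcoeff rfl
  have hdeg : p.natDegree = d := by
    apply le_antisymm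
    · rw [hp]
      refine (natDegree_sub_le _ _).trans (max_le ?_ ?_)
      · rw [← hd]; exact le_max_left _ _
      · refine (natDegree_C_mul_le _ _).trans ?_
        rw [← hd]; exact le_max_right _ _
    · exact le_natDegree_of_ne_zero hcoeff
  -- separability
  have hsep : p.Separable := by
    rw [Polynomial.separable_def, Polynomial.isCoprime_iff_aeval_ne_zero_of_isAlgClosed (k := K) K]
    intro x
    by_contra hcon
    rw [not_or, not_not, not_not] at hcon
    obtain ⟨e1, e2⟩ := hcon
    rw [coe_aeval_eq_eval] at e1 e2
    rw [hp, derivative_sub, derivative_C_mul, eval_sub, eval_mul, eval_C] at e2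
    rw [hp, eval_sub, eval_mul, eval_C] at e1
    have hα : α.eval x = c * β.eval x := by linear_combination e1
    have hα' : (derivative α).eval x = c * (derivative β).eval x := by linear_combination e2
    have hβx : β.eval x ≠ 0 := by
      intro h
      rw [h, mul_zero] at hα
      exact eval_ne_zero_of_isCoprime hcop x hα h
    have hWx : Wr.eval x = 0 := by
      rw [hWr, eval_sub, eval_mul, eval_mul, hα, hα']
      ring
    apply hc2
    rw [Finset.mem_image]
    refine ⟨x, ?_, ?_⟩
    · rw [Multiset.mem_toFinset, mem_roots hWr0]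
      exact hWx
    · rw [hα, mul_div_assoc, div_self hβx, mul_one]
  refine ⟨hp0, ?_⟩
  rw [Multiset.toFinset_card_of_nodup (nodup_roots hsep), IsAlgClosed.card_roots_eq_natDegree, hdeg]

end Fibre

/-! ## Points with a given `x`-coordinate -/

section Points

variable {W : WeierstrassCurve K} {a b : K}

/-- the `x`-coordinate of a point (junk value `0` at infinity) -/
def xCoord : W.toAffine.Point → K
  | .zero => 0
  | .some x _ _ => x

@[simp] lemma xCoord_some {x y : K} (h : W.toAffine.Nonsingular x y) :
    xCoord (Point.some x y h) = x := rfl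

/-- the coordinates of a point -/
def toPair : W.toAffine.Point → Option (K × K)
  | .zero => none
  | .some x y _ => some (x, y)

lemma toPair_injective : Function.Injective (toPair (W := W)) := by
  intro P Q h
  cases P with
  | zero =>
    cases Q with
    | zero => rfl
    | some x y h' => simp [toPair] at h
  | some x y hP =>
    cases Q with
    | zero => simp [toPair] at h
    | some x' y' hQ =>
      simp only [toPair, Option.some.injEq, Prod.mk.injEq] at h
      obtain ⟨rfl, rfl⟩ := h
      rfl

variable [DecidableEq K]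

/-- finitely many points lie over a finite set of `x`-coordinates -/
lemma finite_points_over (hW : IsLeg W a b) (Bad : Finset K) :
    Set.Finite {P : W.toAffine.Point | P = 0 ∨ xCoord P ∈ Bad} := by
  set T : Set (Option (K × K)) := insert none (some '' ⋃ x ∈ (Bad : Set K),
    (fun y => (x, y)) '' ((X ^ 2 - C (x ^ 3 + a * x ^ 2 + b * x) : K[X]).roots.toFinset : Set K))
    with hT
  have hTfin : T.Finite := by
    refine Set.Finite.insert _ (Set.Finite.image _ ?_)
    refine Set.Finite.biUnion (Finset.finite_toSet Bad) fun x _ => ?_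
    exact Set.Finite.image _ (Finset.finite_toSet _)
  refine Set.Finite.subset (Set.Finite.preimage (toPair_injective.injOn) hTfin) ?_
  intro P hP
  rw [Set.mem_preimage, hT]
  cases P with
  | zero => exact Set.mem_insert _ _
  | some x y h =>
    rcases hP with hP | hP
    · exact absurd hP (by simp)
    · refine Set.mem_insert_of_mem _ ⟨(x, y), ?_, rfl⟩
      rw [Set.mem_iUnion₂]
      refine ⟨x, hP, y, ?_, rfl⟩
      rw [Finset.mem_coe, Multiset.mem_toFinset,
        mem_roots (X_pow_sub_C_ne_zero (by norm_num) _)]
      rw [IsRoot, eval_sub, eval_pow, eval_X, eval_C, hW.eq_of_nonsingular h, sub_self]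

omit [DecidableEq K] in
/-- two points with the same `x`-coordinate are equal or opposite -/
lemma eq_or_eq_neg_of_x_eq (hW : IsLeg W a b) {x y y' : K} (h : W.toAffine.Nonsingular x y)
    (h' : W.toAffine.Nonsingular x y') :
    Point.some x y' h' = Point.some x y h ∨ Point.some x y' h' = -Point.some x y h := by
  have q := hW.eq_of_nonsingular h
  have q' := hW.eq_of_nonsingular h'
  have : (y' - y) * (y' + y) = 0 := by linear_combination q' - q
  rcases mul_eq_zero.1 this with e | e
  · left
    have : y' = y := by linear_combination e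
    subst this
    rfl
  · right
    have hy : y' = -y := by linear_combination e
    subst hy
    obtain ⟨hn, en⟩ := hW.neg_some h
    rw [en]

end Points

/-! ## The count -/

section Final

variable {W : WeierstrassCurve K} {a b : K} [DecidableEq K] [IsAlgClosed K] [CharZero K]

/-- **`|E[n]| = n²`** for `E : y² = x³ + a x² + b x`, `b (a² - 4b) ≠ 0`, over an algebraically
closed field of characteristic `0`. -/
theorem natCard_torsion (hW : IsLeg W a b) (hb : b ≠ 0) (hab : a ^ 2 - 4 * b ≠ 0) {n : ℕ}
    (hn : 0 < n) : Nat.card {P : W.toAffine.Point // n • P = 0} = n ^ 2 := by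
  obtain ⟨m, rfl⟩ := Nat.exists_eq_succ_of_ne_zero hn.ne'
  have h2 : (2 : K) ≠ 0 := two_ne_zero
  obtain ⟨⟨g, α, β, hg, hA, hB, hcop, hdeg⟩, ⟨Bad, hpt⟩⟩ := mulData hW hb hab m
  have hd0 : (m + 1) ^ 2 ≠ 0 := pow_ne_zero 2 (Nat.succ_ne_zero m)
  obtain ⟨Cbad, hCbad⟩ := exists_bad_values hcop hdeg hd0
  -- finite sets to avoid
  set Z : Set W.toAffine.Point := {P | P = 0 ∨ xCoord P ∈ Bad} with hZdef
  have hZ : Z.Finite := finite_points_over hW Bad
  have hXZ : (xCoord '' ((fun P : W.toAffine.Point => (m + 1) • P) '' Z)).Finite :=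
    (hZ.image _).image _
  set Bad3 : Finset K := Bad.image (fun x => α.eval x / β.eval x) with hBad3
  obtain ⟨c, hc⟩ := Infinite.exists_notMem_finset
    (Cbad ∪ hXZ.toFinset ∪ Bad3 ∪ (cubicPoly a b).roots.toFinset)
  simp only [Finset.mem_union, not_or] at hc
  obtain ⟨⟨⟨hc1, hc2⟩, hc3⟩, hc4⟩ := hc
  obtain ⟨hp0, hcard⟩ := hCbad c hc1
  -- the point `Q`
  obtain ⟨yc, hyc⟩ := IsAlgClosed.exists_pow_nat_eq (c ^ 3 + a * c ^ 2 + b * c)
    (show 0 < 2 by norm_num)
  have hQns := isLeg_nonsingular_of_equation hW h2 hb hab hyc
  set Q : W.toAffine.Point := Point.some c yc hQns with hQ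
  have hyc0 : yc ≠ 0 := by
    rintro rfl
    apply hc4
    rw [Multiset.mem_toFinset, mem_roots (cubicPoly_ne_zero a b), IsRoot, eval_cubicPoly]
    have : (0 : K) ^ 2 = c ^ 3 + a * c ^ 2 + b * c := hyc
    linear_combination -this
  have hQneg : -Q ≠ Q := by
    obtain ⟨hn', en⟩ := hW.neg_some hQns
    rw [hQ, en]
    intro h
    injection h with _ h'
    apply hyc0
    have : 2 * yc = 0 := by linear_combination -h'
    exact (mul_eq_zero.1 this).resolve_left h2
  -- evaluation of the reduced pair
  have hred : ∀ x₀ : K, (mulB a b (m + 1)).eval x₀ ≠ 0 → ∀ x' : K,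
      x' * (mulB a b (m + 1)).eval x₀ = (mulA a b (m + 1)).eval x₀ →
      β.eval x₀ ≠ 0 ∧ x' * β.eval x₀ = α.eval x₀ := by
    intro x₀ hB0 x' hx'
    rw [hB, eval_mul] at hB0 hx'
    rw [hA, eval_mul] at hx'
    have hg0 : g.eval x₀ ≠ 0 := left_ne_zero_of_mul hB0
    refine ⟨right_ne_zero_of_mul hB0, ?_⟩
    apply mul_left_cancel₀ hg0
    linear_combination hx'
  -- the fibre over `Q`
  set F : Set W.toAffine.Point := {P | (m + 1) • P = Q} with hF
  have hbij : Set.BijOn xCoord F ((α - C c * β).roots.toFinset : Set K) := by
    refine ⟨?_, ?_, ?_⟩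
    · -- maps to
      intro P hP
      rw [hF, Set.mem_ofPred_eq] at hP
      cases P with
      | zero =>
        exfalso
        have : (m + 1) • (0 : W.toAffine.Point) = Q := hP
        rw [smul_zero] at this
        exact absurd this (by rw [hQ]; exact (Point.some_ne_zero _).symm)
      | some x₀ y₀ h =>
        have hx : x₀ ∉ Bad := by
          intro hx
          apply hc2
          rw [Set.Finite.mem_toFinset]
          refine ⟨Q, ⟨Point.some x₀ y₀ h, Or.inr hx, hP⟩, rfl⟩
        obtain ⟨hB0, x', y', h', e, r⟩ := hpt x₀ y₀ h hx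
        rw [hP, hQ] at e
        injection e with e1 e2
        subst e1
        obtain ⟨-, hr⟩ := hred x₀ hB0 c r
        rw [xCoord_some, Finset.mem_coe, Multiset.mem_toFinset, mem_roots hp0, IsRoot, eval_sub,
          eval_mul, eval_C]
        linear_combination -hr
    · -- injective
      intro P hP P' hP' hxx
      rw [hF, Set.mem_ofPred_eq] at hP hP'
      cases P with
      | zero =>
        exfalso
        have : (m + 1) • (0 : W.toAffine.Point) = Q := hP
        rw [smul_zero] at this
        exact absurd this (by rw [hQ]; exact (Point.some_ne_zero _).symm)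
      | some x y h =>
        cases P' with
        | zero =>
          exfalso
          have : (m + 1) • (0 : W.toAffine.Point) = Q := hP'
          rw [smul_zero] at this
          exact absurd this (by rw [hQ]; exact (Point.some_ne_zero _).symm)
        | some x' y' h' =>
          rw [xCoord_some, xCoord_some] at hxx
          subst hxx
          rcases eq_or_eq_neg_of_x_eq hW h h' with e | e
          · exact e.symm
          · exfalso
            rw [e, smul_neg, hP] at hP'
            exact hQneg hP'
    · -- surjective
      intro x₀ hx₀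
      rw [Finset.mem_coe, Multiset.mem_toFinset, mem_roots hp0, IsRoot, eval_sub, eval_mul,
        eval_C] at hx₀
      have hα : α.eval x₀ = c * β.eval x₀ := by linear_combination hx₀
      have hβx : β.eval x₀ ≠ 0 := by
        intro h
        rw [h, mul_zero] at hα
        exact eval_ne_zero_of_isCoprime hcop x₀ hα h
      have hx : x₀ ∉ Bad := by
        intro hx
        apply hc3
        rw [hBad3, Finset.mem_image]
        exact ⟨x₀, hx, by rw [hα, mul_div_assoc, div_self hβx, mul_one]⟩
      obtain ⟨y₀, hy₀⟩ := IsAlgClosed.exists_pow_nat_eq (x₀ ^ 3 + a * x₀ ^ 2 + b * x₀)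
        (show 0 < 2 by norm_num)
      have hns := isLeg_nonsingular_of_equation hW h2 hb hab hy₀
      obtain ⟨hB0, x', y', h', e, r⟩ := hpt x₀ y₀ hns hx
      obtain ⟨-, hr⟩ := hred x₀ hB0 x' r
      have hx' : x' = c := by
        apply mul_right_cancel₀ hβx
        rw [hr, hα]
      subst hx'
      rcases eq_or_eq_neg_of_x_eq hW hQns h' with e' | e'
      · exact ⟨Point.some x₀ y₀ hns, by rw [hF, Set.mem_ofPred_eq, e, e'], rfl⟩
      · obtain ⟨hn', en⟩ := hW.neg_some hns
        refine ⟨-Point.some x₀ y₀ hns, ?_, by rw [en]; rfl⟩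
        rw [hF, Set.mem_ofPred_eq, smul_neg, e, e', neg_neg]
  have hFcard : F.ncard = (m + 1) ^ 2 := by
    rw [hbij.ncard_eq, Set.ncard_coe_finset, hcard]
  -- the kernel
  obtain ⟨P₁, hP₁⟩ : F.Nonempty := by
    apply Set.nonempty_of_ncard_ne_zero
    rw [hFcard]
    exact hd0
  rw [hF, Set.mem_ofPred_eq] at hP₁
  have hker : Set.BijOn (fun T : W.toAffine.Point => T + P₁)
      {T : W.toAffine.Point | (m + 1) • T = 0} F := by
    refine ⟨?_, ?_, ?_⟩
    · intro T hT
      rw [Set.mem_ofPred_eq] at hT
      rw [hF, Set.mem_ofPred_eq, smul_add, hT, zero_add, hP₁]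
    · intro T _ T' _ h
      exact add_right_cancel h
    · intro P hP
      rw [hF, Set.mem_ofPred_eq] at hP
      refine ⟨P - P₁, ?_, sub_add_cancel _ _⟩
      rw [Set.mem_ofPred_eq, smul_sub, hP, hP₁, sub_self]
  have := hker.ncard_eq
  rw [hFcard] at this
  rw [← this]
  exact Nat.card_coe_set_eq _

end Final

end Fermat.Agent.S13Lib.Torsion
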