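/-
S13 / torsion count, part 4: the `n`-torsion of the Frey curve over `ℚ̄` has `n²` elements; its
`p`-torsion is a `2`-dimensional `𝔽_p`-vector space.
-/
import Fermat.Agent.Lib.S13.Torsion.Count
import Fermat.Agent.Lib.S05.Frey

set_option autoImplicit false

open WeierstrassCurve WeierstrassCurve.Affine

namespace Fermat.Agent.S13Lib.Torsion

open Fermat.Agent.S05Lib

local notation "Qb" => AlgebraicClosure ℚ

/-- the `n`-torsion submodule has the same cardinality as the kernel of `n • ·` -/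
lemma natCard_torsionBy_eq {M : Type*} [AddCommGroup M] (n : ℕ) :
    Nat.card (Submodule.torsionBy ℤ M n) = Nat.card {x : M // n • x = 0} := by
  refine Nat.card_congr (Equiv.subtypeEquivRight fun x => ?_)
  rw [Submodule.mem_torsionBy_iff, natCast_zsmul]

/-- **`|E[n]| = n²`** for `E : y² = x (x - e) (x - r)` over `ℚ̄` -/
theorem natCard_torsionBy_legQ (e r : ℤ) (he : e ≠ 0) (hr : r ≠ 0) (her : e ≠ r) {n : ℕ}
    (hn : 0 < n) :
    Nat.card (Submodule.torsionBy ℤ ((legQ e r).toAffine⁄Qb).Point n) = n ^ 2 := by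
  rw [natCard_torsionBy_eq]
  refine natCard_torsion (isLeg_legQ e r) ?_ ?_ hn
  · exact mul_ne_zero (by exact_mod_cast he) (by exact_mod_cast hr)
  · have h : (-((e : Qb) + r)) ^ 2 - 4 * ((e : Qb) * r) = ((e : Qb) - r) ^ 2 := by ring
    rw [h]
    apply pow_ne_zero
    rw [sub_ne_zero]
    exact_mod_cast her

/-- **the `n`-torsion of the Frey curve has `n²` elements** -/
theorem natCard_torsionBy_frey (P : FreyPackage) {n : ℕ} (hn : 0 < n) :
    Nat.card (Submodule.torsionBy ℤ (P.freyCurve.toAffine⁄Qb).Point n) = n ^ 2 := by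
  have hp0 : P.p ≠ 0 := P.hp0
  have he : P.a ^ P.p ≠ 0 := pow_ne_zero _ P.ha0
  have hr : -(P.b ^ P.p) ≠ 0 := neg_ne_zero.2 (pow_ne_zero _ P.hb0)
  have her : P.a ^ P.p ≠ -(P.b ^ P.p) := by
    intro h
    have : P.c ^ P.p = 0 := by rw [← P.hFLT]; linear_combination h
    exact pow_ne_zero _ P.hc0 this
  rw [← natCard_torsionBy_legQ _ _ he hr her hn, freyCurve_eq_ab P]
  obtain ⟨φ, -⟩ := Fermat.Agent.X015.exists_galois_equivariant_equiv (K := Qb)
    (legQ (P.a ^ P.p) (-(P.b ^ P.p))) (freyVC 0)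
  refine Nat.card_congr (Equiv.subtypeEquiv φ.symm.toEquiv fun x => ?_)
  rw [Submodule.mem_torsionBy_iff, Submodule.mem_torsionBy_iff]
  change _ ↔ (n : ℤ) • φ.symm x = 0
  rw [← map_zsmul]
  exact (map_eq_zero_iff φ.symm φ.symm.injective).symm

/-- **the `p`-torsion of the Frey curve is a plane** -/
theorem finrank_torsionBy_frey (P : FreyPackage) :
    Module.finrank (ZMod P.p) (Submodule.torsionBy ℤ (P.freyCurve.toAffine⁄Qb).Point P.p) = 2 := by
  have : Fact P.p.Prime := ⟨P.pp⟩
  have hcard := natCard_torsionBy_frey P P.hppos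
  have : Finite (Submodule.torsionBy ℤ (P.freyCurve.toAffine⁄Qb).Point P.p) :=
    Nat.finite_of_card_ne_zero (by rw [hcard]; exact pow_ne_zero 2 P.hp0)
  have h := Module.natCard_eq_pow_finrank (K := ZMod P.p)
    (V := Submodule.torsionBy ℤ (P.freyCurve.toAffine⁄Qb).Point P.p)
  rw [hcard, Nat.card_zmod] at h
  exact (Nat.pow_right_injective P.pp.two_le h).symm

end Fermat.Agent.S13Lib.Torsion
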