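/-
S13 / torsion, part 4: the norm identity `∏_{T ∈ E[n]} x(Q + T) = c₀ · x(nQ)` (`n` odd,
`c₀² = b^(n²-1)`) on `y² = x³ + a x² + b x`, for all `Q` with `x(nQ)` outside a finite set.

Route: (a) a leading-coefficient induction on `(A_n, B_n)` gives `deg α = n² > deg β` for the reduced
pair; (b) for generic `c = x(nQ)` the `n²` distinct numbers `x(Q+T)` are the roots of `α - c β`;
(c) translation by `T₀ = (0,0)` is `x ↦ b/x`; (d) comparing the factorisations at `Q` and `Q + T₀`
gives `α(0) = 0` and `(β(0)/lc α)² = b^(n²-1)`.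
-/
import Fermat.Agent.Lib.S13.Torsion.Count
import Fermat.Agent.Lib.S13.AtP2

set_option autoImplicit false
set_option linter.unusedSectionVars false

open Polynomial WeierstrassCurve WeierstrassCurve.Affine

namespace Fermat.Agent.S13Lib.Torsion

open Fermat.Agent.S05Lib

variable {K : Type*} [Field K]

/-! ## Top coefficients -/

/-- `F` has degree at most `d` and coefficient `l` at `X ^ d` -/
def HasTop (F : K[X]) (d : ℕ) (l : K) : Prop := F.natDegree ≤ d ∧ F.coeff d = l

namespace HasTop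

variable {F G : K[X]} {d e : ℕ} {l m : K}

lemma mul (hF : HasTop F d l) (hG : HasTop G e m) : HasTop (F * G) (d + e) (l * m) :=
  ⟨natDegree_mul_le_of_le hF.1 hG.1, by rw [coeff_mul_add_eq_of_natDegree_le hF.1 hG.1, hF.2, hG.2]⟩

lemma add (hF : HasTop F d l) (hG : HasTop G d m) : HasTop (F + G) d (l + m) :=
  ⟨natDegree_add_le_of_degree_le hF.1 hG.1, by rw [coeff_add, hF.2, hG.2]⟩

lemma sub (hF : HasTop F d l) (hG : HasTop G d m) : HasTop (F - G) d (l - m) :=
  ⟨(natDegree_sub_le_of_le hF.1 hG.1).trans (by rw [max_self]), by rw [coeff_sub, hF.2, hG.2]⟩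

lemma pow (hF : HasTop F d l) (k : ℕ) : HasTop (F ^ k) (k * d) (l ^ k) :=
  ⟨natDegree_pow_le_of_le k hF.1, by rw [coeff_pow_of_natDegree_le hF.1, hF.2]⟩

lemma raise (hF : HasTop F d l) {d' : ℕ} (h : d < d') : HasTop F d' 0 :=
  ⟨hF.1.trans h.le, coeff_eq_zero_of_natDegree_lt (lt_of_le_of_lt hF.1 h)⟩

lemma congr (hF : HasTop F d l) {d' : ℕ} {l' : K} (hd : d = d') (hl : l = l') : HasTop F d' l' := by
  subst hd; subst hl; exact hF

lemma natDegree_eq (hF : HasTop F d l) (hl : l ≠ 0) : F.natDegree = d := by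
  apply le_antisymm hF.1
  apply le_natDegree_of_ne_zero
  rw [hF.2]
  exact hl

end HasTop

lemma hasTop_X : HasTop (X : K[X]) 1 1 := ⟨natDegree_X_le, coeff_X_one⟩

lemma hasTop_C (c : K) : HasTop (C c) 0 c := ⟨by rw [natDegree_C], coeff_C_zero⟩

lemma hasTop_one : HasTop (1 : K[X]) 0 1 := by
  have := hasTop_C (1 : K)
  rwa [C_1] at this

lemma hasTop_legG0 {α β : K[X]} {d : ℕ} {l m : K} (hα : HasTop α (d + 1) l) (hβ : HasTop β d m) :
    HasTop (legG0 α β) (2 * d + 2) ((l - m) ^ 2) := by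
  unfold legG0
  have h1 : HasTop (X * β) (d + 1) m :=
    (hasTop_X.mul hβ).congr (add_comm _ _) (one_mul _)
  exact ((hα.sub h1).pow 2).congr (by ring) rfl

lemma hasTop_legG1 (a b : K) {α β : K[X]} {d : ℕ} {l m : K} (hα : HasTop α (d + 1) l)
    (hβ : HasTop β d m) : HasTop (legG1 a b α β) (2 * d + 3) (2 * ((l + m) * l)) := by
  unfold legG1
  have h1 : HasTop (X * β) (d + 1) m :=
    (hasTop_X.mul hβ).congr (add_comm _ _) (one_mul _)
  have h2 : HasTop (X * α) (d + 2) l :=
    (hasTop_X.mul hα).congr (by ring) (one_mul _)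
  have h3 : HasTop (C b * β) (d + 2) 0 := ((hasTop_C b).mul hβ).raise (by omega)
  have h4 : HasTop ((α + X * β) * (X * α + C b * β)) (2 * d + 3) ((l + m) * l) :=
    ((hα.add h1).mul (h2.add h3)).congr (by ring) (by ring)
  have h5 : HasTop (2 * C a * X * α * β) (2 * d + 3) 0 := by
    have : (2 : K[X]) = C 2 := (C_ofNat 2).symm
    rw [this]
    exact (((((hasTop_C (2 : K)).mul (hasTop_C a)).mul hasTop_X).mul hα).mul hβ).raise (by omega)
  have h6 : HasTop (2 : K[X]) 0 2 := by
    have : (2 : K[X]) = C 2 := (C_ofNat 2).symm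
    rw [this]
    exact hasTop_C 2
  exact (h6.mul (h4.add h5)).congr (by ring) (by ring)

/-- degrees of `B_n` -/
def mulDeg : ℕ → ℕ
  | 0 => 0
  | 1 => 0
  | 2 => 3
  | (n + 3) => 2 * mulDeg (n + 2) + 2 + mulDeg (n + 1)

section Top

variable [CharZero K]

/-- top coefficients of `(A_n, B_n)`: `deg A_n = deg B_n + 1` and `lc B_n = n² lc A_n` -/
theorem mul_hasTop (a b : K) (n : ℕ) : ∃ l m : K, m ≠ 0 ∧ l * ((n : K) + 1) ^ 2 = m ∧
    HasTop (mulA a b (n + 1)) (mulDeg (n + 1) + 1) l ∧ HasTop (mulB a b (n + 1)) (mulDeg (n + 1)) m := by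
  have key : ∀ n : ℕ, (∃ l m : K, m ≠ 0 ∧ l * ((n : K) + 1) ^ 2 = m ∧
      HasTop (mulA a b (n + 1)) (mulDeg (n + 1) + 1) l ∧
      HasTop (mulB a b (n + 1)) (mulDeg (n + 1)) m) ∧
      (∃ l m : K, m ≠ 0 ∧ l * ((n : K) + 2) ^ 2 = m ∧
      HasTop (mulA a b (n + 2)) (mulDeg (n + 2) + 1) l ∧
      HasTop (mulB a b (n + 2)) (mulDeg (n + 2)) m) := by
    intro n
    induction n with
    | zero =>
      refine ⟨⟨1, 1, one_ne_zero, by norm_num, ?_, ?_⟩, ⟨1, 4, by norm_num, by norm_num, ?_, ?_⟩⟩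
      · rw [mulA_one]; exact hasTop_X
      · rw [mulB_one]; exact hasTop_one
      · rw [mulA_two]
        have h1 : HasTop (X ^ 2 - C b : K[X]) 2 1 := by
          have := (hasTop_X (K := K)).pow 2
          have h2 : HasTop (C b : K[X]) 2 0 := (hasTop_C b).raise (by norm_num)
          exact (this.sub h2).congr (by norm_num) (by norm_num)
        exact (h1.pow 2).congr (by norm_num [mulDeg]) (by norm_num)
      · rw [mulB_two]
        have h1 : HasTop (X ^ 2 + C a * X + C b : K[X]) 2 1 := by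
          have h0 := (hasTop_X (K := K)).pow 2
          have h2 : HasTop (C b : K[X]) 2 0 := (hasTop_C b).raise (by norm_num)
          have h3 : HasTop (C a * X : K[X]) 2 0 := ((hasTop_C a).mul hasTop_X).raise (by norm_num)
          exact ((h0.add h3).add h2).congr (by norm_num) (by norm_num)
        exact (((hasTop_C (4 : K)).mul hasTop_X).mul h1).congr (by norm_num [mulDeg]) (by norm_num)
    | succ n ih =>
      refine ⟨?_, ?_⟩
      · obtain ⟨l, m, hm, hlm, hA, hB⟩ := ih.2
        exact ⟨l, m, hm, by rw [← hlm]; push_cast; ring, hA, hB⟩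
      · obtain ⟨⟨l', m', hm', hlm', hA', hB'⟩, ⟨l, m, hm, hlm, hA, hB⟩⟩ := ih
        have hG0 := hasTop_legG0 hA hB
        have hG1 := hasTop_legG1 a b hA hB
        have hn1 : ((n : K) + 1) ≠ 0 := by exact_mod_cast Nat.succ_ne_zero n
        have hn2 : ((n : K) + 2) ≠ 0 := by
          have : ((n + 2 : ℕ) : K) ≠ 0 := by exact_mod_cast (Nat.succ_ne_zero (n + 1))
          simpa using this
        have hn3 : ((n : K) + 3) ≠ 0 := by
          have : ((n + 3 : ℕ) : K) ≠ 0 := by exact_mod_cast (Nat.succ_ne_zero (n + 2))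
          simpa using this
        have hl0 : l ≠ 0 := by
          rintro rfl
          rw [zero_mul] at hlm
          exact hm hlm.symm
        have hlm0 : l - m ≠ 0 := by
          rw [← hlm]
          intro h
          have : l * (1 - ((n : K) + 2) ^ 2) = 0 := by linear_combination h
          rcases mul_eq_zero.1 this with h | h
          · exact hl0 h
          · have : ((n : K) + 1) * ((n : K) + 3) = 0 := by linear_combination -h
            rcases mul_eq_zero.1 this with h | h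
            · exact hn1 h
            · exact hn3 h
        refine ⟨2 * ((l + m) * l) * m' - (l - m) ^ 2 * l', (l - m) ^ 2 * m',
          mul_ne_zero (pow_ne_zero 2 hlm0) hm', ?_, ?_, ?_⟩
        · rw [← hlm, ← hlm']
          push_cast
          ring
        · rw [show n + 1 + 2 = n + 3 from rfl, mulA_add_three]
          have h1 := hG1.mul hB'
          have h2 := hG0.mul hA'
          refine (h1.sub (h2.congr ?_ rfl)).congr ?_ rfl
          · ring
          · simp only [mulDeg]; ring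
        · rw [show n + 1 + 2 = n + 3 from rfl, mulB_add_three]
          exact (hG0.mul hB').congr (by simp only [mulDeg]) rfl
  exact (key n).1

end Top

section Fibres

variable {W : WeierstrassCurve K} {a b : K} [DecidableEq K] [IsAlgClosed K] [CharZero K]

/-- for all but finitely many `c`, the fibre of `n •` over a point with abscissa `c` is in
bijection (through `x`) with the `n²` simple roots of `α - c β` -/
theorem fibre_bijOn (hW : IsLeg W a b) (hb : b ≠ 0) (hab : a ^ 2 - 4 * b ≠ 0) {n : ℕ}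
    (hn : 0 < n) {g α β : K[X]} (hA : mulA a b n = g * α) (hB : mulB a b n = g * β)
    (hcop : IsCoprime α β) (hdeg : max α.natDegree β.natDegree = n ^ 2)
    {Bad : Finset K} (hpt : PtOK W a b n Bad) :
    ∃ Cbad : Finset K, ∀ c ∉ Cbad, ∀ (yc : K) (hQns : W.toAffine.Nonsingular c yc),
      α - C c * β ≠ 0 ∧ (α - C c * β).roots.toFinset.card = n ^ 2 ∧
      Set.BijOn xCoord {P : W.toAffine.Point | n • P = Point.some c yc hQns}
        ((α - C c * β).roots.toFinset : Set K) := by
  have h2 : (2 : K) ≠ 0 := two_ne_zero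
  have hd0 : n ^ 2 ≠ 0 := pow_ne_zero 2 hn.ne'
  obtain ⟨Cbad, hCbad⟩ := exists_bad_values hcop hdeg hd0
  set Z : Set W.toAffine.Point := {P | P = 0 ∨ xCoord P ∈ Bad} with hZdef
  have hZ : Z.Finite := finite_points_over hW Bad
  have hXZ : (xCoord '' ((fun P : W.toAffine.Point => n • P) '' Z)).Finite :=
    (hZ.image _).image _
  set Bad3 : Finset K := Bad.image (fun x => α.eval x / β.eval x) with hBad3
  refine ⟨Cbad ∪ hXZ.toFinset ∪ Bad3 ∪ (cubicPoly a b).roots.toFinset, fun c hc yc hQns => ?_⟩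
  simp only [Finset.mem_union, not_or] at hc
  obtain ⟨⟨⟨hc1, hc2⟩, hc3⟩, hc4⟩ := hc
  obtain ⟨hp0, hcard⟩ := hCbad c hc1
  refine ⟨hp0, hcard, ?_⟩
  have hyc := hW.eq_of_nonsingular hQns
  set Q : W.toAffine.Point := Point.some c yc hQns with hQ
  have hyc0 : yc ≠ 0 := by
    rintro rfl
    apply hc4
    rw [Multiset.mem_toFinset, mem_roots (cubicPoly_ne_zero a b), IsRoot, eval_cubicPoly]
    have : (0 : K) ^ 2 = c ^ 3 + a * c ^ 2 + b * c := hyc
    linear_combination -this
  have hQneg : -Q ≠ Q := by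
    obtain ⟨hn', en⟩ := hW.neg_some hQns
    rw [hQ, en]
    intro h
    injection h with _ h'
    apply hyc0
    have : 2 * yc = 0 := by linear_combination -h'
    exact (mul_eq_zero.1 this).resolve_left h2
  have hred : ∀ x₀ : K, (mulB a b n).eval x₀ ≠ 0 → ∀ x' : K,
      x' * (mulB a b n).eval x₀ = (mulA a b n).eval x₀ →
      β.eval x₀ ≠ 0 ∧ x' * β.eval x₀ = α.eval x₀ := by
    intro x₀ hB0 x' hx'
    rw [hB, eval_mul] at hB0 hx'
    rw [hA, eval_mul] at hx'
    have hg0 : g.eval x₀ ≠ 0 := left_ne_zero_of_mul hB0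
    refine ⟨right_ne_zero_of_mul hB0, ?_⟩
    apply mul_left_cancel₀ hg0
    linear_combination hx'
  refine ⟨?_, ?_, ?_⟩
  · -- maps to
    intro P hP
    rw [Set.mem_ofPred_eq] at hP
    cases P with
    | zero =>
      exfalso
      have : n • (0 : W.toAffine.Point) = Q := hP
      rw [smul_zero] at this
      exact absurd this (by rw [hQ]; exact (Point.some_ne_zero _).symm)
    | some x₀ y₀ h =>
      have hx : x₀ ∉ Bad := by
        intro hx
        apply hc2
        rw [Set.Finite.mem_toFinset]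
        refine ⟨Q, ⟨Point.some x₀ y₀ h, Or.inr hx, hP⟩, rfl⟩
      obtain ⟨hB0, x', y', h', e, r⟩ := hpt x₀ y₀ h hx
      rw [hP, hQ] at e
      injection e with e1 e2
      subst e1
      obtain ⟨-, hr⟩ := hred x₀ hB0 c r
      rw [xCoord_some, Finset.mem_coe, Multiset.mem_toFinset, mem_roots hp0, IsRoot, eval_sub,
        eval_mul, eval_C]
      linear_combination -hr
  · -- injective
    intro P hP P' hP' hxx
    rw [Set.mem_ofPred_eq] at hP hP'
    cases P with
    | zero =>
      exfalso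
      have : n • (0 : W.toAffine.Point) = Q := hP
      rw [smul_zero] at this
      exact absurd this (by rw [hQ]; exact (Point.some_ne_zero _).symm)
    | some x y h =>
      cases P' with
      | zero =>
        exfalso
        have : n • (0 : W.toAffine.Point) = Q := hP'
        rw [smul_zero] at this
        exact absurd this (by rw [hQ]; exact (Point.some_ne_zero _).symm)
      | some x' y' h' =>
        rw [xCoord_some, xCoord_some] at hxx
        subst hxx
        rcases eq_or_eq_neg_of_x_eq hW h h' with e | e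
        · exact e.symm
        · exfalso
          rw [e, smul_neg, hP] at hP'
          exact hQneg hP'
  · -- surjective
    intro x₀ hx₀
    rw [Finset.mem_coe, Multiset.mem_toFinset, mem_roots hp0, IsRoot, eval_sub, eval_mul,
      eval_C] at hx₀
    have hα : α.eval x₀ = c * β.eval x₀ := by linear_combination hx₀
    have hβx : β.eval x₀ ≠ 0 := by
      intro h
      rw [h, mul_zero] at hα
      exact eval_ne_zero_of_isCoprime hcop x₀ hα h
    have hx : x₀ ∉ Bad := by
      intro hx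
      apply hc3
      rw [hBad3, Finset.mem_image]
      exact ⟨x₀, hx, by rw [hα, mul_div_assoc, div_self hβx, mul_one]⟩
    obtain ⟨y₀, hy₀⟩ := IsAlgClosed.exists_pow_nat_eq (x₀ ^ 3 + a * x₀ ^ 2 + b * x₀)
      (show 0 < 2 by norm_num)
    have hns := isLeg_nonsingular_of_equation hW h2 hb hab hy₀
    obtain ⟨hB0, x', y', h', e, r⟩ := hpt x₀ y₀ hns hx
    obtain ⟨-, hr⟩ := hred x₀ hB0 x' r
    have hx' : x' = c := by
      apply mul_right_cancel₀ hβx
      rw [hr, hα]
    subst hx'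
    rcases eq_or_eq_neg_of_x_eq hW hQns h' with e' | e'
    · exact ⟨Point.some x₀ y₀ hns, by rw [Set.mem_ofPred_eq, e, e'], rfl⟩
    · obtain ⟨hn', en⟩ := hW.neg_some hns
      refine ⟨-Point.some x₀ y₀ hns, ?_, by rw [en]; rfl⟩
      rw [Set.mem_ofPred_eq, smul_neg, e, e', neg_neg]

/-- the factorisation of `α - c β` over a generic fibre -/
theorem fibre_factor (hW : IsLeg W a b) (hb : b ≠ 0) (hab : a ^ 2 - 4 * b ≠ 0) {n : ℕ}
    (hn : 0 < n) {g α β : K[X]} (hA : mulA a b n = g * α) (hB : mulB a b n = g * β)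
    (hcop : IsCoprime α β) (hdα : α.natDegree = n ^ 2) (hdβ : β.natDegree < n ^ 2)
    {Bad : Finset K} (hpt : PtOK W a b n Bad) :
    ∃ Cbad : Finset K, ∀ c ∉ Cbad, ∀ (yc : K) (hQns : W.toAffine.Nonsingular c yc)
      (F : Finset W.toAffine.Point), (∀ P, P ∈ F ↔ n • P = Point.some c yc hQns) →
      α - C c * β = C α.leadingCoeff * ∏ P ∈ F, (X - C (xCoord P)) := by
  have hdeg : max α.natDegree β.natDegree = n ^ 2 := by
    rw [hdα]; exact max_eq_left hdβ.le
  obtain ⟨Cbad, hC⟩ := fibre_bijOn hW hb hab hn hA hB hcop hdeg hpt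
  refine ⟨Cbad, fun c hc yc hQns F hF => ?_⟩
  obtain ⟨hp0, hcard, hbij⟩ := hC c hc yc hQns
  set p := α - C c * β with hp
  have hβdeg : (C c * β).natDegree < α.natDegree := by
    rw [hdα]; exact lt_of_le_of_lt (natDegree_C_mul_le _ _) hdβ
  have hβdeg' : (C c * β).degree < α.degree := by
    have hα0 : α ≠ 0 := by
      rintro rfl
      rw [natDegree_zero] at hdα
      exact (pow_ne_zero 2 hn.ne') hdα.symm
    by_cases h0 : C c * β = 0
    · rw [h0, degree_zero]; exact bot_lt_iff_ne_bot.2 (degree_ne_bot.2 hα0)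
    · exact degree_lt_degree hβdeg
  have hpdeg : p.natDegree = n ^ 2 := by
    rw [hp, natDegree_sub_eq_left_of_natDegree_lt hβdeg, hdα]
  have hplc : p.leadingCoeff = α.leadingCoeff := by
    rw [hp, leadingCoeff_sub_of_degree_lt hβdeg']
  have hnodup : p.roots.Nodup := by
    rw [← Multiset.toFinset_card_eq_card_iff_nodup]
    apply le_antisymm (Multiset.toFinset_card_le _)
    rw [hcard, ← hpdeg]
    exact card_roots' p
  have hroots : Multiset.card p.roots = p.natDegree := by
    rw [← Multiset.toFinset_card_of_nodup hnodup, hcard, hpdeg]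
  have h1 := C_leadingCoeff_mul_prod_multiset_X_sub_C hroots
  rw [← h1, hplc]
  congr 1
  have h2 : (p.roots.map fun r => X - C r).prod = ∏ r ∈ p.roots.toFinset, (X - C r) := by
    rw [Finset.prod_eq_multiset_prod, Multiset.toFinset_val, Multiset.dedup_eq_self.2 hnodup]
  rw [h2]
  symm
  have hFset : (F : Set W.toAffine.Point) = {P | n • P = Point.some c yc hQns} := by
    ext P
    rw [Finset.mem_coe, hF, Set.mem_ofPred_eq]
  rw [← hFset] at hbij
  exact Finset.prod_nbij xCoord (fun P hP => hbij.1 hP) hbij.2.1 hbij.2.2 (fun _ _ => rfl)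

end Fibres

section Translate

variable {W : WeierstrassCurve K} {a b : K} [DecidableEq K]

/-- translation by the `2`-torsion point `(0,0)` -/
lemma add_T0 (hW : IsLeg W a b) {x y : K} (h : W.toAffine.Nonsingular x y) (hx : x ≠ 0)
    (h0 : W.toAffine.Nonsingular 0 0) :
    ∃ w h', Point.some x y h + Point.some 0 0 h0 = Point.some (b / x) w h' := by
  obtain ⟨w, h', e⟩ := hW.add_of_X_ne h h0 hx
  have q := hW.eq_of_nonsingular h
  have hx' : ((y - 0) / (x - 0)) ^ 2 - a - x - 0 = b / x := by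
    rw [sub_zero, sub_zero, sub_zero, div_pow, q]
    field_simp
    ring
  revert h' e
  rw [hx']
  intro h' e
  exact ⟨w, h', e⟩

lemma nsmul_T0 (hW : IsLeg W a b) (h0 : W.toAffine.Nonsingular 0 0) {n : ℕ} (hn : Odd n) :
    n • Point.some 0 0 h0 = Point.some 0 0 h0 := by
  obtain ⟨k, rfl⟩ := hn
  have h2 : 2 • Point.some 0 0 h0 = 0 := by
    rw [two_nsmul]; exact hW.add_self_of_Y_eq_zero h0
  rw [add_nsmul, mul_nsmul, h2, nsmul_zero, zero_add, one_nsmul]

/-- a point with abscissa `0` is `(0,0)` -/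
lemma eq_T0_of_x_eq_zero (hW : IsLeg W a b) {y : K} (h : W.toAffine.Nonsingular 0 y)
    (h0 : W.toAffine.Nonsingular 0 0) : Point.some 0 y h = Point.some 0 0 h0 := by
  have q := hW.eq_of_nonsingular h
  have : y = 0 := by
    have : y ^ 2 = 0 := by rw [q]; ring
    exact pow_eq_zero_iff (two_ne_zero) |>.1 this
  subst this
  rfl

end Translate

section Main

variable {W : WeierstrassCurve K} {a b : K} [DecidableEq K] [IsAlgClosed K] [CharZero K]

/-- the reduced pair `(α, β)` with `deg α = n² > deg β` -/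
theorem exists_reduced (hW : IsLeg W a b) (hb : b ≠ 0) (hab : a ^ 2 - 4 * b ≠ 0) {n : ℕ}
    (hn : 0 < n) : ∃ (g α β : K[X]) (Bad : Finset K), mulA a b n = g * α ∧ mulB a b n = g * β ∧
      IsCoprime α β ∧ α.natDegree = n ^ 2 ∧ β.natDegree < n ^ 2 ∧
      β.leadingCoeff = (n : K) ^ 2 * α.leadingCoeff ∧ PtOK W a b n Bad := by
  obtain ⟨m, rfl⟩ : ∃ m, n = m + 1 := ⟨n - 1, by omega⟩
  obtain ⟨⟨g, α, β, hg, hA, hB, hcop, hdeg⟩, ⟨Bad, hpt⟩⟩ := mulData hW hb hab m
  obtain ⟨l, m', hm', hlm, hTA, hTB⟩ := mul_hasTop a b m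
  have hl : l ≠ 0 := by
    rintro rfl
    rw [zero_mul] at hlm
    exact hm' hlm.symm
  have hd0 : (m + 1) ^ 2 ≠ 0 := pow_ne_zero 2 (Nat.succ_ne_zero m)
  obtain ⟨hα0, hβ0⟩ := ne_zero_of_red hcop (by rw [hdeg]; exact hd0)
  have dA := hTA.natDegree_eq hl
  have dB := hTB.natDegree_eq hm'
  rw [hA, natDegree_mul hg hα0] at dA
  rw [hB, natDegree_mul hg hβ0] at dB
  have hαβ : α.natDegree = β.natDegree + 1 := by omega
  have hmax : max α.natDegree β.natDegree = α.natDegree := max_eq_left (by omega)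
  rw [hmax] at hdeg
  refine ⟨g, α, β, Bad, hA, hB, hcop, hdeg, by omega, ?_, hpt⟩
  -- leading coefficients
  have cA : (mulA a b (m + 1)).leadingCoeff = l := by
    rw [leadingCoeff, hTA.natDegree_eq hl, hTA.2]
  have cB : (mulB a b (m + 1)).leadingCoeff = m' := by
    rw [leadingCoeff, hTB.natDegree_eq hm', hTB.2]
  rw [hA, leadingCoeff_mul] at cA
  rw [hB, leadingCoeff_mul] at cB
  have hg0 : g.leadingCoeff ≠ 0 := leadingCoeff_ne_zero.2 hg
  apply mul_left_cancel₀ hg0
  rw [cB, ← hlm, ← cA]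
  push_cast
  ring

/-- the number of `n`-torsion points, for a `Finset` -/
lemma card_torsion_finset (hW : IsLeg W a b) (hb : b ≠ 0) (hab : a ^ 2 - 4 * b ≠ 0) {n : ℕ}
    (hn : 0 < n) (Vn : Finset W.toAffine.Point) (hVn : ∀ T, T ∈ Vn ↔ n • T = 0) :
    Vn.card = n ^ 2 := by
  have h := natCard_torsion hW hb hab hn
  have hset : {P : W.toAffine.Point | n • P = 0} = (Vn : Set W.toAffine.Point) := by
    ext P
    rw [Set.mem_ofPred_eq, Finset.mem_coe, hVn]
  calc Vn.card = (Vn : Set W.toAffine.Point).ncard := (Set.ncard_coe_finset Vn).symm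
    _ = {P : W.toAffine.Point | n • P = 0}.ncard := by rw [hset]
    _ = Nat.card {P : W.toAffine.Point | n • P = 0} := (Nat.card_coe_set_eq _).symm
    _ = n ^ 2 := h

/-- a `Finset` of the `n`-torsion points exists -/
lemma exists_torsion_finset (hW : IsLeg W a b) (hb : b ≠ 0) (hab : a ^ 2 - 4 * b ≠ 0) {n : ℕ}
    (hn : 0 < n) : ∃ Vn : Finset W.toAffine.Point, ∀ T, T ∈ Vn ↔ n • T = 0 := by
  have h := natCard_torsion hW hb hab hn
  have hfin : Finite {P : W.toAffine.Point // n • P = 0} :=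
    Nat.finite_of_card_ne_zero (by rw [h]; exact pow_ne_zero 2 hn.ne')
  have : Finite ↑{P : W.toAffine.Point | n • P = 0} := hfin
  have hfin' : {P : W.toAffine.Point | n • P = 0}.Finite := Set.toFinite _
  exact ⟨hfin'.toFinset, fun T => by rw [Set.Finite.mem_toFinset, Set.mem_ofPred_eq]⟩

/-- evaluation of the factorisation of `α - c β` over a generic fibre -/
theorem fibre_eval (hW : IsLeg W a b) (hb : b ≠ 0) (hab : a ^ 2 - 4 * b ≠ 0) {n : ℕ}
    (hn : 0 < n) {g α β : K[X]} (hA : mulA a b n = g * α) (hB : mulB a b n = g * β)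
    (hcop : IsCoprime α β) (hdα : α.natDegree = n ^ 2) (hdβ : β.natDegree < n ^ 2)
    {Bad : Finset K} (hpt : PtOK W a b n Bad) :
    ∃ Cbad : Finset K, ∀ c ∉ Cbad, ∀ (yc : K) (hQns : W.toAffine.Nonsingular c yc),
      (∃ Q : W.toAffine.Point, n • Q = Point.some c yc hQns) ∧
      ∀ (Vn : Finset W.toAffine.Point), (∀ T, T ∈ Vn ↔ n • T = 0) →
      ∀ Q : W.toAffine.Point, n • Q = Point.some c yc hQns → ∀ x₁ : K,
      α.eval x₁ - c * β.eval x₁ = α.leadingCoeff * ∏ T ∈ Vn, (x₁ - xCoord (Q + T)) := by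
  have hdeg : max α.natDegree β.natDegree = n ^ 2 := by
    rw [hdα]; exact max_eq_left hdβ.le
  obtain ⟨Cbad₁, hC₁⟩ := fibre_bijOn hW hb hab hn hA hB hcop hdeg hpt
  obtain ⟨Cbad₂, hC₂⟩ := fibre_factor hW hb hab hn hA hB hcop hdα hdβ hpt
  refine ⟨Cbad₁ ∪ Cbad₂, fun c hc yc hQns => ?_⟩
  rw [Finset.mem_union, not_or] at hc
  obtain ⟨hp0, hcard, hbij⟩ := hC₁ c hc.1 yc hQns
  refine ⟨?_, fun Vn hVn Q hQ x₁ => ?_⟩
  · have hne : ((α - C c * β).roots.toFinset : Set K).Nonempty := by
      rw [Finset.coe_nonempty, ← Finset.card_pos, hcard]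
      exact pow_pos hn 2
    obtain ⟨x₀, hx₀⟩ := hne
    obtain ⟨P, hP, -⟩ := hbij.2.2 hx₀
    exact ⟨P, hP⟩
  · set F : Finset W.toAffine.Point := Vn.map (addLeftEmbedding Q) with hF
    have hFmem : ∀ P, P ∈ F ↔ n • P = Point.some c yc hQns := by
      intro P
      rw [hF, Finset.mem_map]
      constructor
      · rintro ⟨T, hT, rfl⟩
        rw [addLeftEmbedding_apply, smul_add, hQ, (hVn T).1 hT, add_zero]
      · intro hP
        refine ⟨P - Q, (hVn _).2 ?_, ?_⟩
        · rw [smul_sub, hP, hQ, sub_self]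
        · rw [addLeftEmbedding_apply, add_sub_cancel]
    have key := hC₂ c hc.2 yc hQns F hFmem
    have := congrArg (fun p => p.eval x₁) key
    simp only [eval_sub, eval_mul, eval_C, eval_prod, eval_X] at this
    rw [this, hF, Finset.prod_map]
    rfl

end Main

section Final

variable {W : WeierstrassCurve K} {a b : K} [DecidableEq K]

/-- a point above a nonzero abscissa has nonzero abscissa, and translation by `(0,0)` inverts
it up to `b` -/
lemma xCoord_add_T0 (hW : IsLeg W a b) (h0 : W.toAffine.Nonsingular 0 0) {n : ℕ} (hn : Odd n)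
    {c yc : K} (hQns : W.toAffine.Nonsingular c yc) (hc : c ≠ 0) {P : W.toAffine.Point}
    (hP : n • P = Point.some c yc hQns) :
    xCoord P ≠ 0 ∧ xCoord (P + Point.some 0 0 h0) = b / xCoord P := by
  cases P with
  | zero =>
    exfalso
    have : n • (0 : W.toAffine.Point) = Point.some c yc hQns := hP
    rw [smul_zero] at this
    exact (Point.some_ne_zero _) this.symm
  | some x y h =>
    have hx : x ≠ 0 := by
      rintro rfl
      rw [eq_T0_of_x_eq_zero hW h h0, nsmul_T0 hW h0 hn] at hP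
      injection hP with e1 e2
      exact hc e1.symm
    refine ⟨hx, ?_⟩
    obtain ⟨w, h', e⟩ := add_T0 hW h hx h0
    rw [e]
    rfl

variable [IsAlgClosed K] [CharZero K]

/-- **The norm identity**: for odd `n` there is a constant `c₀` with `c₀² = b^(n²-1)` such that
`∏_{T ∈ E[n]} x(Q + T) = c₀ · x(nQ)` for all `Q` with `x(nQ)` outside a finite set. -/
theorem norm_identity (hW : IsLeg W a b) (hb : b ≠ 0) (hab : a ^ 2 - 4 * b ≠ 0) {n : ℕ}
    (hn : Odd n) : ∃ (c₀ : K) (Cbad : Finset K), c₀ ^ 2 = b ^ (n ^ 2 - 1) ∧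
      ∀ (Vn : Finset W.toAffine.Point), (∀ T, T ∈ Vn ↔ n • T = 0) →
      ∀ Q : W.toAffine.Point, n • Q ≠ 0 → xCoord (n • Q) ∉ Cbad →
      ∏ T ∈ Vn, xCoord (Q + T) = c₀ * xCoord (n • Q) := by
  have h2 : (2 : K) ≠ 0 := two_ne_zero
  have hn0 : 0 < n := hn.pos
  have hN : Odd (n ^ 2) := hn.pow
  have h0 : W.toAffine.Nonsingular 0 0 :=
    isLeg_nonsingular_of_equation hW h2 hb hab (x := 0) (y := 0) (by ring)
  obtain ⟨g, α, β, Bad, hA, hB, hcop, hdα, hdβ, -, hpt⟩ := exists_reduced hW hb hab hn0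
  obtain ⟨G, hG⟩ := fibre_eval hW hb hab hn0 hA hB hcop hdα hdβ hpt
  have hα0 : α ≠ 0 := by
    rintro rfl
    rw [natDegree_zero] at hdα
    exact (pow_ne_zero 2 hn0.ne') hdα.symm
  have hβ0 : β ≠ 0 := by
    rintro rfl
    have hu : IsUnit α := isCoprime_zero_right.1 hcop
    rw [natDegree_eq_zero_of_isUnit hu] at hdα
    exact (pow_ne_zero 2 hn0.ne') hdα.symm
  set lam := α.leadingCoeff with hlam
  have hlam0 : lam ≠ 0 := leadingCoeff_ne_zero.2 hα0
  set α₀ := α.eval 0 with hα₀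
  set β₀ := β.eval 0 with hβ₀
  -- evaluation at `0`
  have hE0 : ∀ c ∉ G, ∀ (yc : K) (hQns : W.toAffine.Nonsingular c yc)
      (Vn : Finset W.toAffine.Point), (∀ T, T ∈ Vn ↔ n • T = 0) →
      ∀ Q : W.toAffine.Point, n • Q = Point.some c yc hQns →
      α₀ - c * β₀ = -(lam * ∏ T ∈ Vn, xCoord (Q + T)) := by
    intro c hc yc hQns Vn hVn Q hQ
    have := (hG c hc yc hQns).2 Vn hVn Q hQ 0
    rw [this]
    have hcard := card_torsion_finset hW hb hab hn0 Vn hVn
    have : ∏ T ∈ Vn, ((0 : K) - xCoord (Q + T)) = -∏ T ∈ Vn, xCoord (Q + T) := by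
      simp only [zero_sub]
      rw [Finset.prod_neg, hcard, hN.neg_one_pow]
      ring
    rw [this]
    ring
  -- the generic set
  set G' : Finset K := G ∪ {0} ∪ G.image (fun x => b / x) with hG'
  have hgen : ∀ c ∉ G', c ∉ G ∧ c ≠ 0 ∧ b / c ∉ G := by
    intro c hc
    rw [hG', Finset.mem_union, Finset.mem_union, not_or, not_or, Finset.mem_singleton] at hc
    refine ⟨hc.1.1, hc.1.2, fun h => hc.2 ?_⟩
    rw [Finset.mem_image]
    refine ⟨b / c, h, ?_⟩
    field_simp
  -- the two factorisations at a generic `c`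
  have hpair : ∀ c ∉ G', ∃ (Vn : Finset W.toAffine.Point) (xs : W.toAffine.Point → K),
      (∀ T ∈ Vn, xs T ≠ 0) ∧ Vn.card = n ^ 2 ∧
      (∀ x₁ : K, α.eval x₁ - c * β.eval x₁ = lam * ∏ T ∈ Vn, (x₁ - xs T)) ∧
      (∀ x₁ : K, α.eval x₁ - b / c * β.eval x₁ = lam * ∏ T ∈ Vn, (x₁ - b / xs T)) := by
    intro c hc
    obtain ⟨hc1, hc2, hc3⟩ := hgen c hc
    obtain ⟨Vn, hVn⟩ := exists_torsion_finset hW hb hab hn0
    obtain ⟨yc, hyc⟩ := IsAlgClosed.exists_pow_nat_eq (c ^ 3 + a * c ^ 2 + b * c)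
      (show 0 < 2 by norm_num)
    have hQns := isLeg_nonsingular_of_equation hW h2 hb hab hyc
    obtain ⟨⟨Q, hQ⟩, hfac⟩ := hG c hc1 yc hQns
    obtain ⟨w, hQns', e'⟩ := add_T0 hW hQns hc2 h0
    have hQ' : n • (Q + Point.some 0 0 h0) = Point.some (b / c) w hQns' := by
      rw [smul_add, hQ, nsmul_T0 hW h0 hn, e']
    have hfac' := (hG (b / c) hc3 w hQns').2 Vn hVn _ hQ'
    have hTT : ∀ T ∈ Vn, n • (Q + T) = Point.some c yc hQns := by
      intro T hT
      rw [smul_add, hQ, (hVn T).1 hT, add_zero]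
    refine ⟨Vn, fun T => xCoord (Q + T),
      fun T hT => (xCoord_add_T0 hW h0 hn hQns hc2 (hTT T hT)).1,
      card_torsion_finset hW hb hab hn0 Vn hVn, hfac Vn hVn Q hQ, fun x₁ => ?_⟩
    rw [hfac' x₁]
    congr 1
    refine Finset.prod_congr rfl fun T hT => ?_
    rw [add_right_comm, (xCoord_add_T0 hW h0 hn hQns hc2 (hTT T hT)).2]
  -- `α(0) = 0`
  obtain ⟨x₁, hx₁⟩ := Infinite.exists_notMem_finset (insert 0 β.roots.toFinset)
  rw [Finset.mem_insert, not_or, Multiset.mem_toFinset, mem_roots hβ0] at hx₁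
  obtain ⟨hx₁0, hβx₁⟩ := hx₁
  have hα₀0 : α₀ = 0 := by
    set q : K[X] := (C β₀ * X - C α₀) * (C (α.eval x₁) * X - C (b * β.eval x₁)) +
      C (lam * x₁ ^ (n ^ 2)) * X * (C (α.eval (b / x₁)) - C (β.eval (b / x₁)) * X) with hq
    have hq0 : q = 0 := by
      apply eq_zero_of_infinite_isRoot
      refine Set.Infinite.mono ?_ (Set.Finite.infinite_compl (Finset.finite_toSet G'))
      intro c hc
      have hc' : c ∉ G' := hc
      obtain ⟨hc1, hc2, hc3⟩ := hgen c hc'
      obtain ⟨Vn, xs, hxs, hcard, hf1, hf2⟩ := hpair c hc'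
      set Pi := ∏ T ∈ Vn, xs T with hPi
      have h1 : α₀ - c * β₀ = -(lam * Pi) := by
        rw [hα₀, hβ₀, hf1 0]
        have : ∏ T ∈ Vn, ((0 : K) - xs T) = -Pi := by
          simp only [zero_sub]
          rw [Finset.prod_neg, hcard, hN.neg_one_pow]
          ring
        rw [this]
        ring
      have hprod : (∏ T ∈ Vn, (x₁ - b / xs T)) * Pi =
          -(x₁ ^ (n ^ 2) * ∏ T ∈ Vn, (b / x₁ - xs T)) := by
        rw [hPi, ← Finset.prod_mul_distrib]
        have : ∀ T ∈ Vn, (x₁ - b / xs T) * xs T = (-x₁) * (b / x₁ - xs T) := by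
          intro T hT
          have := hxs T hT
          field_simp
          ring
        rw [Finset.prod_congr rfl this, Finset.prod_mul_distrib, Finset.prod_const, hcard,
          hN.neg_pow]
        ring
      have h3 : (α.eval x₁ * c - b * β.eval x₁) * Pi =
          -(x₁ ^ (n ^ 2) * (α.eval (b / x₁) - c * β.eval (b / x₁))) * c := by
        have e1 := hf2 x₁
        have e2 := hf1 (b / x₁)
        have : (α.eval x₁ - b / c * β.eval x₁) * Pi =
            -(x₁ ^ (n ^ 2) * (α.eval (b / x₁) - c * β.eval (b / x₁))) := by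
          rw [e1, e2, mul_assoc, hprod]
          ring
        have e3 : α.eval x₁ * c - b * β.eval x₁ = (α.eval x₁ - b / c * β.eval x₁) * c := by
          field_simp
        rw [e3, mul_right_comm, this]
      show q.IsRoot c
      rw [IsRoot, hq]
      simp only [eval_add, eval_mul, eval_sub, eval_C, eval_X]
      linear_combination (-(α.eval x₁ * c - b * β.eval x₁)) * h1 + lam * h3
    have := congrArg (fun p => p.eval 0) hq0
    simp only [hq, eval_add, eval_mul, eval_sub, eval_C, eval_X, eval_zero, mul_zero, zero_sub,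
      zero_mul, add_zero, sub_zero] at this
    have h4 : α₀ * (b * β.eval x₁) = 0 := by linear_combination this
    rcases mul_eq_zero.1 h4 with h | h
    · exact h
    · exact absurd h (mul_ne_zero hb hβx₁)
  -- the constant
  refine ⟨β₀ / lam, G, ?_, ?_⟩
  · obtain ⟨c, hc⟩ := Infinite.exists_notMem_finset G'
    obtain ⟨hc1, hc2, hc3⟩ := hgen c hc
    obtain ⟨Vn, xs, hxs, hcard, hf1, hf2⟩ := hpair c hc
    set Pi := ∏ T ∈ Vn, xs T with hPi
    have hPi0 : Pi ≠ 0 := Finset.prod_ne_zero_iff.2 hxs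
    have h1 : c * β₀ = lam * Pi := by
      have := hf1 0
      rw [← hα₀, ← hβ₀, hα₀0] at this
      have h' : ∏ T ∈ Vn, ((0 : K) - xs T) = -Pi := by
        simp only [zero_sub]
        rw [Finset.prod_neg, hcard, hN.neg_one_pow]
        ring
      rw [h'] at this
      linear_combination -this
    have h2' : b / c * β₀ * Pi = lam * b ^ (n ^ 2) := by
      have := hf2 0
      rw [← hα₀, ← hβ₀, hα₀0] at this
      have h' : (∏ T ∈ Vn, ((0 : K) - b / xs T)) * Pi = -b ^ (n ^ 2) := by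
        rw [hPi, ← Finset.prod_mul_distrib]
        have : ∀ T ∈ Vn, ((0 : K) - b / xs T) * xs T = -b := by
          intro T hT
          have := hxs T hT
          field_simp
          ring
        rw [Finset.prod_congr rfl this, Finset.prod_const, hcard, hN.neg_pow]
      have : (0 - b / c * β₀) * Pi = lam * (-b ^ (n ^ 2)) := by
        rw [this, mul_assoc, h']
      linear_combination -this
    have hb1 : b ^ (n ^ 2) = b ^ (n ^ 2 - 1) * b := by
      rw [← pow_succ, Nat.sub_add_cancel (Nat.one_le_iff_ne_zero.2 (pow_ne_zero 2 hn0.ne'))]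
    have h5 : b * β₀ ^ 2 = lam ^ 2 * (b ^ (n ^ 2 - 1) * b) := by
      rw [← hb1]
      have e : b * β₀ * Pi = lam * b ^ (n ^ 2) * c := by
        rw [← h2']
        field_simp
      have e2 : (b * β₀ ^ 2) * c = (lam ^ 2 * b ^ (n ^ 2)) * c := by
        linear_combination (β₀ * b) * h1 + lam * e
      exact mul_right_cancel₀ hc2 e2
    rw [div_pow, div_eq_iff (pow_ne_zero 2 hlam0)]
    apply mul_left_cancel₀ hb
    rw [h5]
    ring
  · intro Vn hVn Q hQ0 hQG
    rcases hnQ : n • Q with _ | ⟨c, yc, hQns⟩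
    · exact absurd hnQ hQ0
    · rw [hnQ] at hQG
      have hc : c ∉ G := hQG
      have h1 := hE0 c hc yc hQns Vn hVn Q hnQ
      rw [hα₀0] at h1
      show ∏ T ∈ Vn, xCoord (Q + T) = β₀ / lam * c
      rw [div_mul_eq_mul_div, eq_div_iff hlam0]
      linear_combination h1

end Final

/-! ## The same with `Fermat.Agent.S13Lib.xc` -/

section Xc

variable {W : WeierstrassCurve K}

lemma xc_eq_xCoord (P : W.toAffine.Point) : Fermat.Agent.S13Lib.xc P = xCoord P := by
  cases P <;> rfl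

variable {a b : K} [DecidableEq K] [IsAlgClosed K] [CharZero K]

/-- **The norm identity**, stated with `Fermat.Agent.S13Lib.xc`. -/
theorem norm_identity_xc (hW : IsLeg W a b) (hb : b ≠ 0) (hab : a ^ 2 - 4 * b ≠ 0) {n : ℕ}
    (hn : Odd n) : ∃ (c : K) (Cbad : Finset K), c ^ 2 = b ^ (n ^ 2 - 1) ∧
      ∀ (Vn : Finset W.toAffine.Point), (∀ T, T ∈ Vn ↔ n • T = 0) →
      ∀ Q : W.toAffine.Point, n • Q ≠ 0 → Fermat.Agent.S13Lib.xc (n • Q) ∉ Cbad →
      ∏ T ∈ Vn, Fermat.Agent.S13Lib.xc (Q + T) = c * Fermat.Agent.S13Lib.xc (n • Q) := by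
  obtain ⟨c, Cbad, hc, h⟩ := norm_identity hW hb hab hn
  refine ⟨c, Cbad, hc, fun Vn hVn Q hQ hQC => ?_⟩
  simp only [xc_eq_xCoord] at hQC ⊢
  exact h Vn hVn Q hQ hQC

end Xc

end Fermat.Agent.S13Lib.Torsion
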